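/-
S26 / block M (architect helper99) : restriction and pull-back of units of the structure sheaf.
-/
import Fermat.Agent.S26.B.Defs
import Fermat.Agent.S25.Mod.Gen

set_option autoImplicit false

universe u

open CategoryTheory AlgebraicGeometry TopologicalSpace Fermat.Agent.S25.Mod

noncomputable section

namespace Fermat.Agent.S26.M

variable {T T' T'' : Scheme.{u}}

/-- restriction of units -/
def resU {W' W : T.Opens} (h : W' ≤ W) : Γ(T, W)ˣ →* Γ(T, W')ˣ :=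
  Units.map ((T.presheaf.map (homOfLE h).op).hom : Γ(T, W) →* Γ(T, W'))

@[simp] theorem coe_resU {W' W : T.Opens} (h : W' ≤ W) (a : Γ(T, W)ˣ) :
    ((resU h a : Γ(T, W')ˣ) : Γ(T, W')) = resO h (a : Γ(T, W)) := rfl

@[simp] theorem resU_self {W : T.Opens} (h : W ≤ W) (a : Γ(T, W)ˣ) : resU h a = a := by
  ext
  simp

@[simp] theorem resU_resU {W'' W' W : T.Opens} (h' : W'' ≤ W') (h : W' ≤ W) (a : Γ(T, W)ˣ) :
    resU h' (resU h a) = resU (h'.trans h) a := by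
  ext
  simp

/-- pull-back of units -/
def pullU (φ : T' ⟶ T) (W : T.Opens) : Γ(T, W)ˣ →* Γ(T', φ ⁻¹ᵁ W)ˣ :=
  Units.map ((φ.app W).hom : Γ(T, W) →* Γ(T', φ ⁻¹ᵁ W))

@[simp] theorem coe_pullU (φ : T' ⟶ T) (W : T.Opens) (a : Γ(T, W)ˣ) :
    ((pullU φ W a : Γ(T', φ ⁻¹ᵁ W)ˣ) : Γ(T', φ ⁻¹ᵁ W)) = φ.app W (a : Γ(T, W)) := rfl

/-- pull-back commutes with restriction (functions) -/
theorem resO_app (φ : T' ⟶ T) {W' W : T.Opens} (h : W' ≤ W) (a : Γ(T, W)) :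
    resO (φ.preimage_mono h) (φ.app W a) = φ.app W' (resO h a) := by
  have := congr($(φ.naturality (homOfLE h).op) a)
  exact this.symm

/-- pull-back commutes with restriction (units) -/
theorem resU_pullU (φ : T' ⟶ T) {W' W : T.Opens} (h : W' ≤ W) (a : Γ(T, W)ˣ) :
    resU (φ.preimage_mono h) (pullU φ W a) = pullU φ W' (resU h a) := by
  ext
  exact resO_app φ h a

theorem resU_pullU' (φ : T' ⟶ T) {W₁ W₂ : T.Opens} (h : W₁ ≤ W₂) {W' : T'.Opens}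
    (h' : W' ≤ φ ⁻¹ᵁ W₁) (a : Γ(T, W₂)ˣ) :
    resU h' (pullU φ W₁ (resU h a)) = resU (h'.trans (φ.preimage_mono h)) (pullU φ W₂ a) := by
  rw [← resU_pullU, resU_resU]

theorem preimage_inf_le (φ : T' ⟶ T) (U V : T.Opens) : φ ⁻¹ᵁ U ⊓ φ ⁻¹ᵁ V ≤ φ ⁻¹ᵁ (U ⊓ V) :=
  le_rfl

theorem le_preimage_inf (φ : T' ⟶ T) {U V : T.Opens} {W' : T'.Opens} (hU : W' ≤ φ ⁻¹ᵁ U)
    (hV : W' ≤ φ ⁻¹ᵁ V) : W' ≤ φ ⁻¹ᵁ (U ⊓ V) :=
  (le_inf hU hV).trans (preimage_inf_le φ U V)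

end Fermat.Agent.S26.M

end
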