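/-
S26 / block M (architect helper99) : point-indexed Cech cocycles with values in the units of the
structure sheaf.  Convention: `u x y = e y / e x` for local generators `e x` on `U x`.
-/
import Fermat.Agent.S26.M.Units

set_option autoImplicit false

universe u

open CategoryTheory AlgebraicGeometry TopologicalSpace Fermat.Agent.S25.Mod

noncomputable section

namespace Fermat.Agent.S26.M

/-- a point-indexed cocycle -/
structure Cocycle (T : Scheme.{u}) where
  U : T → T.Opens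
  mem : ∀ x, x ∈ U x
  u : ∀ x y, Γ(T, U x ⊓ U y)ˣ
  coc : ∀ x y z,
    resU (inf_le_left : U x ⊓ U y ⊓ U z ≤ U x ⊓ U y) (u x y) *
      resU (le_inf (inf_le_left.trans inf_le_right) inf_le_right : U x ⊓ U y ⊓ U z ≤ U y ⊓ U z)
        (u y z) =
      resU (le_inf (inf_le_left.trans inf_le_left) inf_le_right : U x ⊓ U y ⊓ U z ≤ U x ⊓ U z)
        (u x z)

namespace Cocycle

variable {T : Scheme.{u}} (c d : Cocycle T)

/-- the cocycle on a smaller open -/
def r (x y : T) (W : T.Opens) (hx : W ≤ c.U x) (hy : W ≤ c.U y) : Γ(T, W)ˣ :=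
  resU (le_inf hx hy) (c.u x y)

theorem u_eq_r (x y : T) : c.u x y = c.r x y (c.U x ⊓ c.U y) inf_le_left inf_le_right := by
  simp [r]

@[simp] theorem resU_r {x y : T} {W W' : T.Opens} (h : W' ≤ W) (hx : W ≤ c.U x) (hy : W ≤ c.U y) :
    resU h (c.r x y W hx hy) = c.r x y W' (h.trans hx) (h.trans hy) := by
  simp [r]

theorem r_mul_r {x y z : T} (W : T.Opens) (hx : W ≤ c.U x) (hy : W ≤ c.U y) (hz : W ≤ c.U z) :
    c.r x y W hx hy * c.r y z W hy hz = c.r x z W hx hz := by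
  have h := congrArg (resU (le_inf (le_inf hx hy) hz)) (c.coc x y z)
  simpa [r] using h

@[simp] theorem r_self {x : T} (W : T.Opens) (hx hx' : W ≤ c.U x) : c.r x x W hx hx' = 1 := by
  have h := c.r_mul_r W hx hx hx
  exact mul_eq_left.mp h

theorem r_inv {x y : T} (W : T.Opens) (hx : W ≤ c.U x) (hy : W ≤ c.U y) :
    (c.r x y W hx hy)⁻¹ = c.r y x W hy hx := by
  rw [inv_eq_iff_mul_eq_one, r_mul_r, r_self]

theorem r_congr {x y x' y' : T} (hxx : x = x') (hyy : y = y') (W : T.Opens) (hx : W ≤ c.U x)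
    (hy : W ≤ c.U y) : c.r x y W hx hy = c.r x' y' W (hxx ▸ hx) (hyy ▸ hy) := by
  subst hxx hyy
  rfl

/-- constructor from the values on all small opens -/
def mk' (U : T → T.Opens) (mem : ∀ x, x ∈ U x) (u : ∀ x y, Γ(T, U x ⊓ U y)ˣ)
    (coc : ∀ x y z (W : T.Opens) (hx : W ≤ U x) (hy : W ≤ U y) (hz : W ≤ U z),
      resU (le_inf hx hy) (u x y) * resU (le_inf hy hz) (u y z) = resU (le_inf hx hz) (u x z)) :
    Cocycle T :=
  ⟨U, mem, u, fun x y z => coc x y z (U x ⊓ U y ⊓ U z) (inf_le_left.trans inf_le_left)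
    (inf_le_left.trans inf_le_right) inf_le_right⟩

/-- the trivial cocycle -/
instance : One (Cocycle T) :=
  ⟨mk' (fun _ => ⊤) (fun _ => trivial) (fun _ _ => 1) (fun _ _ _ _ _ _ _ => by simp)⟩

/-- the product of two cocycles -/
instance : Mul (Cocycle T) :=
  ⟨fun c d => mk' (fun x => c.U x ⊓ d.U x) (fun x => ⟨c.mem x, d.mem x⟩)
    (fun x y => c.r x y _ (inf_le_left.trans inf_le_left) (inf_le_right.trans inf_le_left) *
      d.r x y _ (inf_le_left.trans inf_le_right) (inf_le_right.trans inf_le_right))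
    (fun x y z W hx hy hz => by
      simp only [map_mul, resU_r]
      rw [mul_mul_mul_comm, r_mul_r, r_mul_r])⟩

/-- the inverse of a cocycle -/
instance : Inv (Cocycle T) :=
  ⟨fun c => mk' c.U c.mem (fun x y => (c.u x y)⁻¹) (fun x y z W hx hy hz => by
      have := c.r_mul_r W hx hy hz
      simp only [map_inv, ← mul_inv]
      exact congrArg _ this)⟩

@[simp] theorem one_U (x : T) : (1 : Cocycle T).U x = ⊤ := rfl
@[simp] theorem mul_U (x : T) : (c * d).U x = c.U x ⊓ d.U x := rfl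
@[simp] theorem inv_U (x : T) : (c⁻¹).U x = c.U x := rfl

@[simp] theorem one_r (x y : T) (W : T.Opens) (hx : W ≤ (1 : Cocycle T).U x)
    (hy : W ≤ (1 : Cocycle T).U y) : (1 : Cocycle T).r x y W hx hy = 1 :=
  map_one _

theorem mul_r (x y : T) (W : T.Opens) (hx : W ≤ (c * d).U x) (hy : W ≤ (c * d).U y) :
    (c * d).r x y W hx hy =
      c.r x y W (hx.trans inf_le_left) (hy.trans inf_le_left) *
        d.r x y W (hx.trans inf_le_right) (hy.trans inf_le_right) := by
  have h : (c * d).r x y W hx hy =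
      resU (le_inf hx hy : W ≤ (c.U x ⊓ d.U x) ⊓ (c.U y ⊓ d.U y))
        (c.r x y _ (inf_le_left.trans inf_le_left) (inf_le_right.trans inf_le_left) *
          d.r x y _ (inf_le_left.trans inf_le_right) (inf_le_right.trans inf_le_right)) := rfl
  rw [h, map_mul, resU_r, resU_r]

theorem inv_r (x y : T) (W : T.Opens) (hx : W ≤ (c⁻¹).U x) (hy : W ≤ (c⁻¹).U y) :
    (c⁻¹).r x y W hx hy = (c.r x y W hx hy)⁻¹ :=
  map_inv _ _

/-- cohomologous cocycles: `e' x = a x • e x` on `W x`. -/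
def Rel (c c' : Cocycle T) : Prop :=
  ∃ (W : T → T.Opens) (_ : ∀ x, x ∈ W x) (h : ∀ x, W x ≤ c.U x) (h' : ∀ x, W x ≤ c'.U x)
    (a : ∀ x, Γ(T, W x)ˣ), ∀ x y,
      c'.r x y (W x ⊓ W y) (inf_le_left.trans (h' x)) (inf_le_right.trans (h' y)) *
          resU inf_le_left (a x) =
        c.r x y (W x ⊓ W y) (inf_le_left.trans (h x)) (inf_le_right.trans (h y)) *
          resU inf_le_right (a y)

variable {c d}

/-- two cocycles which agree on small opens are cohomologous -/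
theorem Rel.of_r_eq {c c' : Cocycle T} (W : T → T.Opens) (hW : ∀ x, x ∈ W x)
    (h : ∀ x, W x ≤ c.U x) (h' : ∀ x, W x ≤ c'.U x)
    (H : ∀ x y, c'.r x y (W x ⊓ W y) (inf_le_left.trans (h' x)) (inf_le_right.trans (h' y)) =
      c.r x y (W x ⊓ W y) (inf_le_left.trans (h x)) (inf_le_right.trans (h y))) : Rel c c' :=
  ⟨W, hW, h, h', fun _ => 1, fun x y => by rw [H, map_one, map_one]⟩

theorem Rel.refl (c : Cocycle T) : Rel c c :=
  Rel.of_r_eq c.U c.mem (fun _ => le_rfl) (fun _ => le_rfl) (fun _ _ => rfl)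

theorem Rel.symm {c c' : Cocycle T} (H : Rel c c') : Rel c' c := by
  obtain ⟨W, hW, h, h', a, ha⟩ := H
  refine ⟨W, hW, h', h, fun x => (a x)⁻¹, fun x y => ?_⟩
  have := ha x y
  rw [map_inv, map_inv, mul_inv_eq_iff_eq_mul, mul_assoc, mul_comm _ (resU _ (a x)), ← mul_assoc,
    this, mul_assoc, mul_inv_cancel, mul_one]

theorem Rel.trans {c c' c'' : Cocycle T} (H : Rel c c') (H' : Rel c' c'') : Rel c c'' := by
  obtain ⟨W, hW, h, h', a, ha⟩ := H
  obtain ⟨W', hW', k, k', b, hb⟩ := H'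
  refine ⟨fun x => W x ⊓ W' x, fun x => ⟨hW x, hW' x⟩, fun x => inf_le_left.trans (h x),
    fun x => inf_le_right.trans (k' x),
    fun x => resU inf_le_left (a x) * resU inf_le_right (b x), fun x y => ?_⟩
  have h1 := congrArg (resU (inf_le_inf inf_le_left inf_le_left :
    (W x ⊓ W' x) ⊓ (W y ⊓ W' y) ≤ W x ⊓ W y)) (ha x y)
  have h2 := congrArg (resU (inf_le_inf inf_le_right inf_le_right :
    (W x ⊓ W' x) ⊓ (W y ⊓ W' y) ≤ W' x ⊓ W' y)) (hb x y)
  simp only [map_mul, resU_r, resU_resU] at h1 h2 ⊢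
  rw [mul_comm (resU _ (a x)), ← mul_assoc, h2, mul_right_comm, h1, mul_assoc]

theorem Rel.mul {c c' d d' : Cocycle T} (H : Rel c c') (H' : Rel d d') : Rel (c * d) (c' * d') := by
  obtain ⟨W, hW, h, h', a, ha⟩ := H
  obtain ⟨W', hW', k, k', b, hb⟩ := H'
  refine ⟨fun x => W x ⊓ W' x, fun x => ⟨hW x, hW' x⟩, fun x => inf_le_inf (h x) (k x),
    fun x => inf_le_inf (h' x) (k' x),
    fun x => resU inf_le_left (a x) * resU inf_le_right (b x), fun x y => ?_⟩
  have h1 := congrArg (resU (inf_le_inf inf_le_left inf_le_left :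
    (W x ⊓ W' x) ⊓ (W y ⊓ W' y) ≤ W x ⊓ W y)) (ha x y)
  have h2 := congrArg (resU (inf_le_inf inf_le_right inf_le_right :
    (W x ⊓ W' x) ⊓ (W y ⊓ W' y) ≤ W' x ⊓ W' y)) (hb x y)
  simp only [map_mul, resU_r, resU_resU, mul_r] at h1 h2 ⊢
  rw [mul_mul_mul_comm, h1, h2, mul_mul_mul_comm]

theorem Rel.inv {c c' : Cocycle T} (H : Rel c c') : Rel c⁻¹ c'⁻¹ := by
  obtain ⟨W, hW, h, h', a, ha⟩ := H
  refine ⟨W, hW, h, h', fun x => (a x)⁻¹, fun x y => ?_⟩
  have := congrArg (fun t => t⁻¹) (ha x y)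
  simpa only [inv_r, map_inv, mul_inv] using this

theorem rel_mul_assoc (c d e : Cocycle T) : Rel (c * d * e) (c * (d * e)) :=
  Rel.of_r_eq (fun x => c.U x ⊓ d.U x ⊓ e.U x) (fun x => ⟨⟨c.mem x, d.mem x⟩, e.mem x⟩)
    (fun _ => le_rfl) (fun _ => le_inf (inf_le_left.trans inf_le_left)
      (le_inf (inf_le_left.trans inf_le_right) inf_le_right))
    (fun x y => by simp only [mul_r, mul_assoc])

theorem rel_mul_comm (c d : Cocycle T) : Rel (c * d) (d * c) :=
  Rel.of_r_eq (fun x => c.U x ⊓ d.U x) (fun x => ⟨c.mem x, d.mem x⟩)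
    (fun _ => le_rfl) (fun _ => le_inf inf_le_right inf_le_left)
    (fun x y => by simp only [mul_r]; rw [mul_comm])

theorem rel_one_mul (c : Cocycle T) : Rel (1 * c) c :=
  Rel.of_r_eq c.U c.mem (fun _ => le_inf le_top le_rfl) (fun _ => le_rfl)
    (fun x y => by simp only [mul_r, one_r, one_mul])

theorem rel_inv_mul (c : Cocycle T) : Rel (c⁻¹ * c) 1 :=
  Rel.of_r_eq c.U c.mem (fun _ => le_inf le_rfl le_rfl) (fun _ => le_top)
    (fun x y => by simp only [mul_r, one_r, inv_r, inv_mul_cancel])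

/-- the setoid of cohomologous cocycles -/
instance setoid (T : Scheme.{u}) : Setoid (Cocycle T) := ⟨Rel, Rel.refl, Rel.symm, Rel.trans⟩

end Cocycle

/-- the cocycle Picard group -/
def CPic (T : Scheme.{u}) : Type u := Quotient (Cocycle.setoid T)

namespace CPic

variable {T : Scheme.{u}}

/-- the class of a cocycle -/
def mk (c : Cocycle T) : CPic T := Quotient.mk _ c

theorem mk_eq_mk {c c' : Cocycle T} : mk c = mk c' ↔ Cocycle.Rel c c' := Quotient.eq

theorem exists_mk (ξ : CPic T) : ∃ c, mk c = ξ := Quotient.exists_rep ξ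

instance : Zero (CPic T) := ⟨mk 1⟩

instance : Add (CPic T) :=
  ⟨Quotient.map₂ (· * ·) (fun _ _ h _ _ h' => Cocycle.Rel.mul h h')⟩

instance : Neg (CPic T) := ⟨Quotient.map (·⁻¹) (fun _ _ h => Cocycle.Rel.inv h)⟩

instance : AddCommGroup (CPic T) :=
  { AddGroup.ofLeftAxioms
      (by
        rintro ⟨a⟩ ⟨b⟩ ⟨c⟩
        exact Quotient.sound (Cocycle.rel_mul_assoc a b c))
      (by
        rintro ⟨a⟩
        exact Quotient.sound (Cocycle.rel_one_mul a))
      (by
        rintro ⟨a⟩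
        exact Quotient.sound (Cocycle.rel_inv_mul a)) with
    add_comm := by
      rintro ⟨a⟩ ⟨b⟩
      exact Quotient.sound (Cocycle.rel_mul_comm a b) }

theorem mk_mul (c d : Cocycle T) : mk (c * d) = mk c + mk d := rfl
theorem mk_inv (c : Cocycle T) : mk c⁻¹ = - mk c := rfl
theorem mk_one : mk (1 : Cocycle T) = 0 := rfl

end CPic

end Fermat.Agent.S26.M

end
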