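/-
S26 / block M (architect helper99) : pull-back of cocycles, functoriality, the Picard group of a point.
-/
import Fermat.Agent.S26.M.Cocycle

set_option autoImplicit false

universe u

open CategoryTheory AlgebraicGeometry TopologicalSpace Fermat.Agent.S25.Mod

noncomputable section

namespace Fermat.Agent.S26.M

variable {T T' T'' : Scheme.{u}}

namespace Cocycle

/-- pull-back of a cocycle -/
def pull (φ : T' ⟶ T) (c : Cocycle T) : Cocycle T' :=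
  mk' (fun x' => φ ⁻¹ᵁ c.U (φ x')) (fun x' => c.mem (φ x'))
    (fun x' y' => resU (preimage_inf_le φ _ _) (pullU φ _ (c.u (φ x') (φ y'))))
    (fun x' y' z' W hx hy hz => by
      have h := congrArg (fun t => resU (le_preimage_inf φ (le_preimage_inf φ hx hy) hz)
        (pullU φ (c.U (φ x') ⊓ c.U (φ y') ⊓ c.U (φ z')) t)) (c.coc (φ x') (φ y') (φ z'))
      simp only [map_mul, resU_pullU'] at h
      simpa only [resU_resU] using h)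

@[simp] theorem pull_U (φ : T' ⟶ T) (c : Cocycle T) (x' : T') :
    (pull φ c).U x' = φ ⁻¹ᵁ c.U (φ x') := rfl

/-- the values of the pull-back -/
theorem pull_r (φ : T' ⟶ T) (c : Cocycle T) (x' y' : T') (W : T.Opens) (hx : W ≤ c.U (φ x'))
    (hy : W ≤ c.U (φ y')) (W' : T'.Opens) (h : W' ≤ φ ⁻¹ᵁ W) :
    (pull φ c).r x' y' W' (h.trans (φ.preimage_mono hx)) (h.trans (φ.preimage_mono hy)) =
      resU h (pullU φ W (c.r (φ x') (φ y') W hx hy)) := by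
  have e : (pull φ c).r x' y' W' (h.trans (φ.preimage_mono hx)) (h.trans (φ.preimage_mono hy)) =
      resU (le_inf (h.trans (φ.preimage_mono hx)) (h.trans (φ.preimage_mono hy)))
        (resU (preimage_inf_le φ _ _)
          (pullU φ (c.U (φ x') ⊓ c.U (φ y')) (c.u (φ x') (φ y')))) := rfl
  rw [e, r, resU_pullU', resU_resU]

theorem Rel.pull (φ : T' ⟶ T) {c d : Cocycle T} (H : Rel c d) :
    Rel (Cocycle.pull φ c) (Cocycle.pull φ d) := by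
  obtain ⟨W, hW, h, h', a, ha⟩ := H
  refine ⟨fun x' => φ ⁻¹ᵁ W (φ x'), fun x' => hW (φ x'), fun x' => φ.preimage_mono (h _),
    fun x' => φ.preimage_mono (h' _), fun x' => pullU φ _ (a (φ x')), fun x' y' => ?_⟩
  have h1 := congrArg (fun t => resU (preimage_inf_le φ _ _) (pullU φ _ t)) (ha (φ x') (φ y'))
  simp only [map_mul, resU_pullU'] at h1
  have e1 := pull_r φ d x' y' (W (φ x') ⊓ W (φ y')) (inf_le_left.trans (h' _))
    (inf_le_right.trans (h' _)) (φ ⁻¹ᵁ W (φ x') ⊓ φ ⁻¹ᵁ W (φ y')) (preimage_inf_le φ _ _)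
  have e2 := pull_r φ c x' y' (W (φ x') ⊓ W (φ y')) (inf_le_left.trans (h _))
    (inf_le_right.trans (h _)) (φ ⁻¹ᵁ W (φ x') ⊓ φ ⁻¹ᵁ W (φ y')) (preimage_inf_le φ _ _)
  exact (congrArg (· * _) e1).trans (h1.trans (congrArg (· * _) e2).symm)

/-- (`pull_r` for `c * d`, `c`, `d` with `W := (c.U _ ⊓ d.U _) ⊓ (c.U _ ⊓ d.U _)`, `mul_r`, `map_mul`.) -/
theorem rel_pull_mul (φ : T' ⟶ T) (c d : Cocycle T) :
    Rel (pull φ (c * d)) (pull φ c * pull φ d) := by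
  refine Rel.of_r_eq (fun x' => φ ⁻¹ᵁ (c.U (φ x') ⊓ d.U (φ x'))) (fun x' => ⟨c.mem _, d.mem _⟩)
    (fun _ => le_rfl) (fun _ => le_rfl) (fun x' y' => ?_)
  have e0 := pull_r φ (c * d) x' y'
    ((c.U (φ x') ⊓ d.U (φ x')) ⊓ (c.U (φ y') ⊓ d.U (φ y'))) inf_le_left inf_le_right
    (φ ⁻¹ᵁ (c.U (φ x') ⊓ d.U (φ x')) ⊓ φ ⁻¹ᵁ (c.U (φ y') ⊓ d.U (φ y'))) (preimage_inf_le φ _ _)
  have e1 := pull_r φ c x' y'
    ((c.U (φ x') ⊓ d.U (φ x')) ⊓ (c.U (φ y') ⊓ d.U (φ y'))) (inf_le_left.trans inf_le_left)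
    (inf_le_right.trans inf_le_left)
    (φ ⁻¹ᵁ (c.U (φ x') ⊓ d.U (φ x')) ⊓ φ ⁻¹ᵁ (c.U (φ y') ⊓ d.U (φ y'))) (preimage_inf_le φ _ _)
  have e2 := pull_r φ d x' y'
    ((c.U (φ x') ⊓ d.U (φ x')) ⊓ (c.U (φ y') ⊓ d.U (φ y'))) (inf_le_left.trans inf_le_right)
    (inf_le_right.trans inf_le_right)
    (φ ⁻¹ᵁ (c.U (φ x') ⊓ d.U (φ x')) ⊓ φ ⁻¹ᵁ (c.U (φ y') ⊓ d.U (φ y'))) (preimage_inf_le φ _ _)
  rw [mul_r]
  refine ((congrArg₂ (· * ·) e1 e2).trans ?_).trans e0.symm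
  rw [mul_r, map_mul, map_mul]

/-- (`Rel.of_r_eq` on `W x'' := (ψ ≫ φ) ⁻¹ᵁ c.U ((ψ ≫ φ) x'')`; `pull_r` three times;
`(ψ ≫ φ).app W = φ.app W ≫ ψ.app _` (`Scheme.Hom.comp_app`); `(ψ ≫ φ) x'' = φ (ψ x'')` is `rfl` or
`Scheme.Hom.comp_apply` + `r_congr`.) -/
theorem rel_pull_comp (ψ : T'' ⟶ T') (φ : T' ⟶ T) (c : Cocycle T) :
    Rel (pull (ψ ≫ φ) c) (pull ψ (pull φ c)) := by
  refine Rel.of_r_eq (fun x'' => (ψ ≫ φ) ⁻¹ᵁ c.U ((ψ ≫ φ) x'')) (fun x'' => c.mem _)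
    (fun _ => le_rfl) (fun _ => le_rfl) (fun x'' y'' => ?_)
  have e0 := pull_r (ψ ≫ φ) c x'' y'' (c.U ((ψ ≫ φ) x'') ⊓ c.U ((ψ ≫ φ) y'')) inf_le_left
    inf_le_right ((ψ ≫ φ) ⁻¹ᵁ c.U ((ψ ≫ φ) x'') ⊓ (ψ ≫ φ) ⁻¹ᵁ c.U ((ψ ≫ φ) y''))
    (preimage_inf_le _ _ _)
  have e1 := pull_r ψ (pull φ c) x'' y'' (φ ⁻¹ᵁ (c.U (φ (ψ x'')) ⊓ c.U (φ (ψ y''))))
    (φ.preimage_mono inf_le_left) (φ.preimage_mono inf_le_right)
    ((ψ ≫ φ) ⁻¹ᵁ c.U ((ψ ≫ φ) x'') ⊓ (ψ ≫ φ) ⁻¹ᵁ c.U ((ψ ≫ φ) y'')) le_rfl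
  have e2 := pull_r φ c (ψ x'') (ψ y'') (c.U (φ (ψ x'')) ⊓ c.U (φ (ψ y''))) inf_le_left
    inf_le_right (φ ⁻¹ᵁ (c.U (φ (ψ x'')) ⊓ c.U (φ (ψ y'')))) le_rfl
  refine (e1.trans ?_).trans e0.symm
  rw [e2]
  ext
  simp only [coe_resU, coe_pullU, resU_self]
  rw [Scheme.Hom.comp_app]
  rfl

theorem rel_pull_id (c : Cocycle T) : Rel (pull (𝟙 T) c) c := by
  refine Rel.of_r_eq c.U c.mem (fun _ => le_rfl) (fun _ => le_rfl) (fun x y => ?_)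
  have e0 := pull_r (𝟙 T) c x y (c.U x ⊓ c.U y) inf_le_left inf_le_right (c.U x ⊓ c.U y) le_rfl
  refine Eq.trans ?_ e0.symm
  ext
  simp only [coe_resU, coe_pullU]
  rw [Scheme.Hom.id_app]
  exact (resO_self _ _).symm

/-- every cocycle on the spectrum of a field is trivial
(`Rel.of_r_eq` on `W := c.U`; the space is a subsingleton, `r_congr`, `r_self`.) -/
theorem rel_one_of_field (K : Type u) [Field K] (c : Cocycle (SpK K)) : Rel c 1 := by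
  refine Rel.of_r_eq c.U c.mem (fun _ => le_rfl) (fun _ => le_top) (fun x y => ?_)
  have hs : Subsingleton (SpK K) := inferInstanceAs (Subsingleton (PrimeSpectrum K))
  rw [one_r, c.r_congr rfl (Subsingleton.elim y x), r_self]

end Cocycle

namespace CPic

/-- pull-back of classes -/
def pull (φ : T' ⟶ T) : CPic T →+ CPic T' :=
  AddMonoidHom.mk' (Quotient.map (Cocycle.pull φ) (fun _ _ h => Cocycle.Rel.pull φ h)) (by
    rintro ⟨a⟩ ⟨b⟩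
    exact Quotient.sound (Cocycle.rel_pull_mul φ a b))

theorem pull_mk (φ : T' ⟶ T) (c : Cocycle T) : pull φ (mk c) = mk (Cocycle.pull φ c) := rfl

theorem pull_comp (ψ : T'' ⟶ T') (φ : T' ⟶ T) (ξ : CPic T) :
    pull (ψ ≫ φ) ξ = pull ψ (pull φ ξ) := by
  obtain ⟨c, rfl⟩ := exists_mk ξ
  exact mk_eq_mk.2 (Cocycle.rel_pull_comp ψ φ c)

theorem pull_id (ξ : CPic T) : pull (𝟙 T) ξ = ξ := by
  obtain ⟨c, rfl⟩ := exists_mk ξ
  exact mk_eq_mk.2 (Cocycle.rel_pull_id c)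

theorem pic_point (K : Type u) [Field K] (ξ : CPic (SpK K)) : ξ = 0 := by
  obtain ⟨c, rfl⟩ := exists_mk ξ
  exact mk_eq_mk.2 (Cocycle.rel_one_of_field K c)

end CPic

end Fermat.Agent.S26.M

end
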