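/-
S26 / block M (architect helper99) : sections of the structure sheaf of an integral scheme versus
rational functions.

`Rep W a f` : the section `a ∈ Γ(T, W)` represents the rational function `f ∈ K(T)` (at every point of
`W`; vacuous if `W = ⊥`).
-/
import Fermat.Agent.S26.M.Units

set_option autoImplicit false

universe u

open CategoryTheory AlgebraicGeometry TopologicalSpace Fermat.Agent.S25.Mod

noncomputable section

namespace Fermat.Agent.S26.M

variable {T : Scheme.{u}} [IsIntegral T]

/-- the section `a` over `W` represents the rational function `f` -/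
def Rep (W : T.Opens) (a : Γ(T, W)) (f : T.functionField) : Prop :=
  ∀ (z : T) (hz : z ∈ W), toFF z (T.presheaf.germ W z hz a) = f

theorem toFF_injective (z : T) : Function.Injective (toFF z) :=
  IsFractionRing.injective (T.presheaf.stalk z) T.functionField

/-- (`TopCat.Presheaf.germ_res_apply`.) -/
theorem Rep.res {W W' : T.Opens} {a : Γ(T, W)} {f : T.functionField} (H : Rep W a f)
    (h : W' ≤ W) : Rep W' (resO h a) f := by
  intro z hz
  rw [resO, TopCat.Presheaf.germ_res_apply]
  exact H z (h hz)

theorem Rep.mul {W : T.Opens} {a b : Γ(T, W)} {f g : T.functionField} (H : Rep W a f)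
    (H' : Rep W b g) : Rep W (a * b) (f * g) := by
  intro z hz
  rw [map_mul, map_mul, H z hz, H' z hz]

theorem Rep.one (W : T.Opens) : Rep W (1 : Γ(T, W)) (1 : T.functionField) := by
  intro z hz
  rw [map_one, map_one]

/-- (`toFF_injective`, sections with equal germs are equal: `TopCat.Sheaf.section_ext` /
`TopCat.Presheaf.section_ext T.sheaf`.) -/
theorem Rep.unique {W : T.Opens} {a b : Γ(T, W)} {f : T.functionField} (H : Rep W a f)
    (H' : Rep W b f) : a = b := by
  refine TopCat.Presheaf.section_ext T.sheaf W a b ?_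
  intro z hz
  exact toFF_injective z ((H z hz).trans (H' z hz).symm)

theorem Rep.unique_units {W : T.Opens} {a b : Γ(T, W)ˣ} {f : T.functionField}
    (H : Rep W (a : Γ(T, W)) f) (H' : Rep W (b : Γ(T, W)) f) : a = b :=
  Units.ext (H.unique H')

theorem Rep.inv {W : T.Opens} {a : Γ(T, W)ˣ} {f : T.functionField} (H : Rep W (a : Γ(T, W)) f) :
    Rep W ((a⁻¹ : Γ(T, W)ˣ) : Γ(T, W)) f⁻¹ := by
  intro z hz
  have h1 : toFF z (T.presheaf.germ W z hz ((a⁻¹ : Γ(T, W)ˣ) : Γ(T, W))) *
      toFF z (T.presheaf.germ W z hz (a : Γ(T, W))) = 1 := by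
    rw [← map_mul, ← map_mul, Units.inv_mul, map_one, map_one]
  rw [H z hz] at h1
  exact eq_inv_of_mul_eq_one_left h1

theorem Rep.eq_of_mem {W : T.Opens} {a : Γ(T, W)} {f g : T.functionField} (H : Rep W a f)
    (H' : Rep W a g) {z : T} (hz : z ∈ W) : f = g :=
  (H z hz).symm.trans (H' z hz)

theorem Rep.isUnitAt {W : T.Opens} {a : Γ(T, W)ˣ} {f : T.functionField}
    (H : Rep W (a : Γ(T, W)) f) {z : T} (hz : z ∈ W) : IsUnitAt z f :=
  ⟨T.presheaf.germ W z hz (a : Γ(T, W)), a.isUnit.map (T.presheaf.germ W z hz).hom, H z hz⟩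

/-- the image in the function field of the germ of a section does not depend on the point
(the algebra map `stalk z → K(T)` is `stalkSpecializes` to the generic point:
`TopCat.Presheaf.germ_stalkSpecializes`; both sides are the germ at the generic point). -/
theorem Rep.of_germ {W : T.Opens} (a : Γ(T, W)) {z : T} (hz : z ∈ W) :
    Rep W a (toFF z (T.presheaf.germ W z hz a)) := by
  intro y hy
  have : Nonempty W := ⟨⟨z, hz⟩⟩
  rw [toFF, toFF, Scheme.algebraMap_germ_eq_germToFunctionField,
    Scheme.algebraMap_germ_eq_germToFunctionField]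

/-- a germ is represented by a section (`TopCat.Presheaf.exists_germ_eq` / `germ_exist`). -/
theorem exists_section_of_stalk (x : T) (t : T.presheaf.stalk x) :
    ∃ (V : T.Opens) (hx : x ∈ V) (s : Γ(T, V)), T.presheaf.germ V x hx s = t :=
  TopCat.Presheaf.exists_germ_eq T.presheaf t

/-- two non-empty opens of an integral scheme meet -/
theorem exists_mem_inf {W W' : T.Opens} {x y : T} (hx : x ∈ W) (hy : y ∈ W') :
    ∃ z, z ∈ W ⊓ W' := by
  refine ⟨genericPoint T, ?_, ?_⟩
  · exact ((genericPoint_spec T).mem_open_set_iff W.isOpen).mpr ⟨x, trivial, hx⟩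
  · exact ((genericPoint_spec T).mem_open_set_iff W'.isOpen).mpr ⟨y, trivial, hy⟩

end Fermat.Agent.S26.M

end
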