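/-
S26 / block M (architect helper99) : gluing rational functions which are regular (resp. units) at every point of an open.
-/
import Fermat.Agent.S26.M.Rep

set_option autoImplicit false

universe u

open CategoryTheory AlgebraicGeometry TopologicalSpace Fermat.Agent.S25.Mod

noncomputable section

namespace Fermat.Agent.S26.M

variable {T : Scheme.{u}} [IsIntegral T]

/-- **Gluing.**  A rational function which is regular at every point of `W` is a section over `W`.
(For `z ∈ W` choose `V z ≤ W` and `s z ∈ Γ(T, V z)` with germ the given element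
(`exists_section_of_stalk`, intersect with `W`); `Rep (V z) (s z) f` by `Rep.of_germ`; the `s z` agree
on the overlaps by `Rep.unique`; `function_glue`; the glued section represents `f`:
`germ_res_apply`.) -/
theorem exists_rep_of_isRegAt (W : T.Opens) (f : T.functionField) (h : ∀ z ∈ W, IsRegAt z f) :
    ∃ a : Γ(T, W), Rep W a f := by
  have key : ∀ z : W, ∃ (U : T.Opens) (_ : (z : T) ∈ U) (_ : U ≤ W) (s : Γ(T, U)), Rep U s f := by
    intro z
    obtain ⟨t, ht⟩ := h z z.2
    obtain ⟨V, hzV, s, hs⟩ := exists_section_of_stalk (z : T) t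
    refine ⟨V ⊓ W, ⟨hzV, z.2⟩, inf_le_right, resO inf_le_left s, ?_⟩
    have h1 := Rep.of_germ s hzV
    rw [hs, ht] at h1
    exact h1.res _
  choose U hzU hle s hs using key
  have hcov : W ≤ ⨆ z, U z := fun z hz => Opens.mem_iSup.mpr ⟨⟨z, hz⟩, hzU ⟨z, hz⟩⟩
  obtain ⟨y, hy⟩ := function_glue U hle hcov s
    (fun i j => ((hs i).res inf_le_left).unique ((hs j).res inf_le_right))
  refine ⟨y, fun z hz => ?_⟩
  rw [← hs ⟨z, hz⟩ z (hzU ⟨z, hz⟩), ← hy ⟨z, hz⟩]
  congr 1
  exact (TopCat.Presheaf.germ_res_apply T.presheaf (homOfLE (hle ⟨z, hz⟩)) z (hzU ⟨z, hz⟩) y).symm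

/-- (`exists_rep_of_isRegAt` for `f` and `f⁻¹` (`IsUnitAt.inv`), `Rep.mul`, `Rep.one`, `Rep.unique`;
if `f = 0` then `W = ⊥`... better: `f * f⁻¹ = 1` at any point of `W` because `f` is a unit there, and
`Rep.unique` only looks at points of `W`: prove `Rep W (a * b) 1` pointwise.) -/
theorem exists_unit_rep (W : T.Opens) (f : T.functionField) (h : ∀ z ∈ W, IsUnitAt z f) :
    ∃ a : Γ(T, W)ˣ, Rep W (a : Γ(T, W)) f := by
  obtain ⟨a, ha⟩ := exists_rep_of_isRegAt W f (fun z hz => (h z hz).imp fun _ hu => hu.2)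
  obtain ⟨b, hb⟩ := exists_rep_of_isRegAt W f⁻¹ (fun z hz => (h z hz).inv.imp fun _ hu => hu.2)
  have hne : ∀ z ∈ W, f ≠ 0 := by
    intro z hz
    obtain ⟨u, hu, rfl⟩ := h z hz
    exact (hu.map (toFF z)).ne_zero
  have hab : a * b = 1 := by
    refine Rep.unique (f := 1) (fun z hz => ?_) (Rep.one W)
    rw [map_mul, map_mul, ha z hz, hb z hz, mul_inv_cancel₀ (hne z hz)]
  exact ⟨Units.mkOfMulEqOne a b hab, ha⟩

end Fermat.Agent.S26.M

end
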