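/-
S26 / block M (architect helper99) : the class of fractional Cartier data on an integral scheme.
`u x y = θ x / θ y` on `U x ⊓ U y`, `U x` from `D.coh x`.
-/
import Fermat.Agent.S26.M.RepGlue
import Fermat.Agent.S26.M.Pull

set_option autoImplicit false

universe u

open CategoryTheory AlgebraicGeometry TopologicalSpace Fermat.Agent.S25.Mod

noncomputable section

namespace Fermat.Agent.S26.M

variable {T : Scheme.{u}} [IsIntegral T]

/-- the neighbourhood of `x` on which `θ x` is a local equation -/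
def clU (D : CD T) (x : T) : T.Opens := (D.coh x).choose

theorem mem_clU (D : CD T) (x : T) : x ∈ clU D x := (D.coh x).choose_spec.1

theorem isUnitAt_of_mem_clU (D : CD T) {x y : T} (hy : y ∈ clU D x) :
    IsUnitAt y (D.θ x / D.θ y) := (D.coh x).choose_spec.2 y hy

theorem isUnitAt_div (D : CD T) {x y z : T} (hx : z ∈ clU D x) (hy : z ∈ clU D y) :
    IsUnitAt z (D.θ x / D.θ y) := by
  have h := (isUnitAt_of_mem_clU D hx).mul (isUnitAt_of_mem_clU D hy).inv
  rwa [inv_div, div_mul_div_cancel₀ (D.ne z)] at h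

/-- the transition functions -/
def clu (D : CD T) (x y : T) : Γ(T, clU D x ⊓ clU D y)ˣ :=
  (exists_unit_rep (clU D x ⊓ clU D y) (D.θ x / D.θ y)
    (fun _ hz => isUnitAt_div D hz.1 hz.2)).choose

theorem rep_clu (D : CD T) (x y : T) :
    Rep (clU D x ⊓ clU D y) (clu D x y : Γ(T, clU D x ⊓ clU D y)) (D.θ x / D.θ y) :=
  (exists_unit_rep (clU D x ⊓ clU D y) (D.θ x / D.θ y)
    (fun _ hz => isUnitAt_div D hz.1 hz.2)).choose_spec

/-- the cocycle of Cartier data -/
def clCocycle (D : CD T) : Cocycle T :=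
  Cocycle.mk' (clU D) (mem_clU D) (clu D) (fun x y z W hx hy hz => by
    refine Rep.unique_units (f := D.θ x / D.θ z) ?_ ((rep_clu D x z).res _)
    have h := ((rep_clu D x y).res (le_inf hx hy)).mul ((rep_clu D y z).res (le_inf hy hz))
    rwa [div_mul_div_cancel₀ (D.ne y)] at h)

@[simp] theorem clCocycle_U (D : CD T) (x : T) : (clCocycle D).U x = clU D x := rfl

theorem rep_clCocycle_r (D : CD T) (x y : T) (W : T.Opens) (hx : W ≤ (clCocycle D).U x)
    (hy : W ≤ (clCocycle D).U y) :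
    Rep W ((clCocycle D).r x y W hx hy : Γ(T, W)) (D.θ x / D.θ y) :=
  (rep_clu D x y).res (le_inf hx hy)

/-- the class of Cartier data -/
def cl (D : CD T) : CPic T := CPic.mk (clCocycle D)

/-- a cocycle whose values represent `θ x / θ y` on small opens is cohomologous to `clCocycle D`.
(`Rel.of_r_eq` on `fun x => W x ⊓ clU D x`, `Rep.unique_units`, `rep_clCocycle_r`, `Rep.res`,
`Cocycle.resU_r`.) -/
theorem rel_clCocycle_of_rep (D : CD T) (c : Cocycle T) (W : T → T.Opens) (hW : ∀ x, x ∈ W x)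
    (h : ∀ x, W x ≤ c.U x)
    (H : ∀ x y, Rep (W x ⊓ W y) (c.r x y (W x ⊓ W y) (inf_le_left.trans (h x))
      (inf_le_right.trans (h y)) : Γ(T, W x ⊓ W y)) (D.θ x / D.θ y)) :
    Cocycle.Rel c (clCocycle D) := by
  refine Cocycle.Rel.of_r_eq (fun x => W x ⊓ clU D x) (fun x => ⟨hW x, mem_clU D x⟩)
    (fun x => inf_le_left.trans (h x)) (fun x => inf_le_right) (fun x y => ?_)
  refine Rep.unique_units (f := D.θ x / D.θ y) (rep_clCocycle_r D x y _ _ _) ?_
  have h1 := (H x y).res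
    (inf_le_inf inf_le_left inf_le_left : (W x ⊓ clU D x) ⊓ (W y ⊓ clU D y) ≤ W x ⊓ W y)
  rw [← coe_resU, Cocycle.resU_r] at h1
  exact h1

/-- (`rel_clCocycle_of_rep` for `c := clCocycle D * clCocycle D'`, `Cocycle.mul_r`, `Rep.mul`,
`mul_div_mul_comm`.) -/
theorem cl_mul (D D' : CD T) : cl (D * D') = cl D + cl D' := by
  have h : Cocycle.Rel (clCocycle D * clCocycle D') (clCocycle (D * D')) := by
    refine rel_clCocycle_of_rep (D * D') (clCocycle D * clCocycle D')
      (fun x => clU D x ⊓ clU D' x) (fun x => ⟨mem_clU D x, mem_clU D' x⟩) (fun _ => le_rfl)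
      (fun x y => ?_)
    rw [Cocycle.mul_r, Units.val_mul, CD.mul_θ, CD.mul_θ, mul_div_mul_comm]
    exact (rep_clCocycle_r D x y _ _ _).mul (rep_clCocycle_r D' x y _ _ _)
  exact (CPic.mk_eq_mk.mpr h).symm

/-- (`rel_clCocycle_of_rep` for `c := (clCocycle D)⁻¹`, `Cocycle.inv_r`, `Rep.inv`.) -/
theorem cl_inv (D : CD T) : cl D⁻¹ = - cl D := by
  have h : Cocycle.Rel (clCocycle D)⁻¹ (clCocycle D⁻¹) := by
    refine rel_clCocycle_of_rep D⁻¹ (clCocycle D)⁻¹ (clU D) (mem_clU D) (fun _ => le_rfl)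
      (fun x y => ?_)
    rw [Cocycle.inv_r, CD.inv_θ, CD.inv_θ, inv_div_inv, ← inv_div]
    exact (rep_clCocycle_r D x y _ _ _).inv
  exact (CPic.mk_eq_mk.mpr h).symm

end Fermat.Agent.S26.M

end
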