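/-
S26 / block M (architect helper99) : Cartier data with trivial class are principal.
-/
import Fermat.Agent.S26.M.Cl

set_option autoImplicit false

universe u

open CategoryTheory AlgebraicGeometry TopologicalSpace Fermat.Agent.S25.Mod

noncomputable section

namespace Fermat.Agent.S26.M

variable {T : Scheme.{u}} [IsIntegral T]

/-- (`CPic.mk_eq_mk` : `Rel (clCocycle D) 1` gives `W x ∋ x` and units `a x` with
`a x = u x y * a y` on `W x ⊓ W y`.  Put `f x := toFF x (germ (a x))`, `Rep (W x) (a x) (f x)`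
(`Rep.of_germ`).  At a point of `W x ⊓ W y` (`exists_mem_inf`): `f x = θ x / θ y * f y`.  So
`h := f x₀ / θ x₀` (`x₀` any point, e.g. `genericPoint T`) satisfies `h * θ x = f x`, a unit at `x`
(`Rep.isUnitAt`), and `h ≠ 0`.) -/
theorem isPrincipal_of_cl_eq_zero (D : CD T) (h : cl D = 0) : D.IsPrincipal := by
  have hrel : Cocycle.Rel (clCocycle D) 1 := CPic.mk_eq_mk.1 h
  obtain ⟨W, hW, k, k', a, ha⟩ := hrel
  let f : T → T.functionField := fun x =>
    toFF x (T.presheaf.germ (W x) x (hW x) (a x : Γ(T, W x)))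
  have hf : ∀ x, Rep (W x) (a x : Γ(T, W x)) (f x) := fun x => Rep.of_germ _ (hW x)
  have hfu : ∀ x, IsUnitAt x (f x) := fun x => (hf x).isUnitAt (hW x)
  have hrelf : ∀ x y, f x = D.θ x / D.θ y * f y := by
    intro x y
    obtain ⟨z, hz⟩ := exists_mem_inf (hW x) (hW y)
    have h1 : Rep (W x ⊓ W y) (resO inf_le_left (a x : Γ(T, W x))) (f x) := (hf x).res _
    have h2 : Rep (W x ⊓ W y)
        (((clCocycle D).r x y (W x ⊓ W y) (inf_le_left.trans (k x)) (inf_le_right.trans (k y)) :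
          Γ(T, W x ⊓ W y)) * resO inf_le_right (a y : Γ(T, W y))) (D.θ x / D.θ y * f y) :=
      (rep_clCocycle_r D x y _ _ _).mul ((hf y).res _)
    have h3 := congrArg (fun t : Γ(T, W x ⊓ W y)ˣ => (t : Γ(T, W x ⊓ W y))) (ha x y)
    simp only [Cocycle.one_r, one_mul, Units.val_mul, coe_resU] at h3
    rw [← h3] at h2
    exact h1.eq_of_mem h2 hz
  have hne : ∀ x, f x ≠ 0 := by
    intro x
    obtain ⟨b, hb, hbf⟩ := hfu x
    rw [← hbf]
    exact (hb.map (toFF x)).ne_zero
  let x₀ : T := genericPoint T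
  refine ⟨f x₀ / D.θ x₀, div_ne_zero (hne x₀) (D.ne x₀), fun x => ?_⟩
  have e : f x₀ / D.θ x₀ * D.θ x = f x := by
    rw [hrelf x x₀]
    ring
  rw [e]
  exact hfu x

end Fermat.Agent.S26.M

end
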