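/-
S26 / block M (architect helper99) : the class of effective Cartier data commutes with pull-back
(along ANY morphism of integral schemes for which the pulled-back local equations are non-zero).
-/
import Fermat.Agent.S26.M.Cl

set_option autoImplicit false

universe u

open CategoryTheory AlgebraicGeometry TopologicalSpace Fermat.Agent.S25.Mod

noncomputable section

namespace Fermat.Agent.S26.M

variable {T T' : Scheme.{u}} [IsIntegral T] [IsIntegral T']

/-- local equations as sections: `V x ∋ x`, `V x ≤ clU D.toCD x`, `t x ∈ Γ(T, V x)` with germ `θ x`.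
(`exists_section_of_stalk`, intersect with `clU`, `germ_res_apply`.) -/
theorem exists_local_equations (D : ECD T) :
    ∃ (V : T → T.Opens) (hV : ∀ x, x ∈ V x) (_ : ∀ x, V x ≤ clU D.toCD x) (t : ∀ x, Γ(T, V x)),
      ∀ x, T.presheaf.germ (V x) x (hV x) (t x) = D.θ x := by
  have key : ∀ x : T, ∃ (V : T.Opens) (hV : x ∈ V) (_ : V ≤ clU D.toCD x) (t : Γ(T, V)),
      T.presheaf.germ V x hV t = D.θ x := by
    intro x
    obtain ⟨V₀, hx, s, hs⟩ := exists_section_of_stalk x (D.θ x)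
    refine ⟨V₀ ⊓ clU D.toCD x, ⟨hx, mem_clU D.toCD x⟩, inf_le_right, resO inf_le_left s, ?_⟩
    rw [← hs]
    exact TopCat.Presheaf.germ_res_apply T.presheaf (homOfLE inf_le_left) x
      ⟨hx, mem_clU D.toCD x⟩ s
  choose V hV hle t ht using key
  exact ⟨V, hV, hle, t, ht⟩

/-- `t x = u x y * t y` as SECTIONS over `V x ⊓ V y`.
(Both sides represent `toFF x (θ x)`: `Rep.of_germ`, `Rep.res`, `Rep.mul`, `rep_clCocycle_r`,
`div_mul_cancel₀`, `Rep.unique`.) -/
theorem local_equations_rel (D : ECD T) (V : T → T.Opens) (hV : ∀ x, x ∈ V x)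
    (hle : ∀ x, V x ≤ clU D.toCD x) (t : ∀ x, Γ(T, V x))
    (ht : ∀ x, T.presheaf.germ (V x) x (hV x) (t x) = D.θ x) (x y : T) :
    resO (inf_le_left : V x ⊓ V y ≤ V x) (t x) =
      ((clCocycle D.toCD).r x y (V x ⊓ V y) (inf_le_left.trans (hle x))
        (inf_le_right.trans (hle y)) : Γ(T, V x ⊓ V y)) *
        resO (inf_le_right : V x ⊓ V y ≤ V y) (t y) := by
  have hx : Rep (V x) (t x) (toFF x (D.θ x)) := by
    have h := Rep.of_germ (t x) (hV x)
    rwa [ht x] at h
  have hy : Rep (V y) (t y) (toFF y (D.θ y)) := by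
    have h := Rep.of_germ (t y) (hV y)
    rwa [ht y] at h
  have h1 := (rep_clCocycle_r D.toCD x y (V x ⊓ V y) (inf_le_left.trans (hle x))
    (inf_le_right.trans (hle y))).mul (hy.res (inf_le_right : V x ⊓ V y ≤ V y))
  have h2 : D.toCD.θ x / D.toCD.θ y * toFF y (D.θ y) = toFF x (D.θ x) :=
    div_mul_cancel₀ _ (D.toCD.ne y)
  rw [h2] at h1
  exact (hx.res (inf_le_left : V x ⊓ V y ≤ V x)).unique h1

/-- the pull-back of a section with germ `θ (φ x')` represents `θ' x'`.
(`Scheme.Hom.germ_stalkMap_apply` / `Scheme.stalkMap_germ_apply`, `Rep.of_germ`.) -/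
theorem rep_app_of_germ (φ : T' ⟶ T) (D : ECD T) (D' : ECD T') (h : ECD.IsPull φ D D') (x' : T')
    (V : T.Opens) (hV : φ x' ∈ V) (t : Γ(T, V)) (ht : T.presheaf.germ V (φ x') hV t = D.θ (φ x')) :
    Rep (φ ⁻¹ᵁ V) (φ.app V t) (toFF x' (D'.θ x')) := by
  have h1 := Rep.of_germ (φ.app V t) (z := x') (show x' ∈ φ ⁻¹ᵁ V from hV)
  have h2 : T'.presheaf.germ (φ ⁻¹ᵁ V) x' hV (φ.app V t) = D'.θ x' := by
    rw [h x', ← ht]
    exact (Scheme.Hom.germ_stalkMap_apply φ V x' hV t).symm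
  rwa [h2] at h1

end Fermat.Agent.S26.M

end
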