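/-
S26 / block M (architect helper99) : the class of effective Cartier data commutes with pull-back.
-/
import Fermat.Agent.S26.M.ClPullAux

set_option autoImplicit false

universe u

open CategoryTheory AlgebraicGeometry TopologicalSpace Fermat.Agent.S25.Mod

noncomputable section

namespace Fermat.Agent.S26.M

variable {T T' : Scheme.{u}} [IsIntegral T] [IsIntegral T']

/-- **M3.**  (`exists_local_equations`; `rel_clCocycle_of_rep D'.toCD (pull φ (clCocycle D.toCD))` with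
`W x' := φ ⁻¹ᵁ V (φ x')`.  Apply `φ.app` to `local_equations_rel` at `(φ x', φ y')`, restrict
(`resO_app`, `Cocycle.pull_r`): `s x' = u₁ x' y' * s y'` on `W x' ⊓ W y'` with `s x' := φ.app _ (t (φ x'))`
representing `ϑ' x' := toFF x' (D'.θ x') ≠ 0` (`rep_app_of_germ`).  For `z ∈ W x' ⊓ W y'` apply
`toFF z ∘ germ z` : `ϑ' x' = toFF z (germ z u₁) * ϑ' y'`, i.e. `Rep _ u₁ (ϑ' x' / ϑ' y')`.) -/
theorem cl_pull (φ : T' ⟶ T) (D : ECD T) (D' : ECD T') (h : ECD.IsPull φ D D') :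
    CPic.pull φ (cl D.toCD) = cl D'.toCD := by
  obtain ⟨V, hV, hle, t, ht⟩ := exists_local_equations D
  refine CPic.mk_eq_mk.2 (rel_clCocycle_of_rep D'.toCD (Cocycle.pull φ (clCocycle D.toCD))
    (fun x' => φ ⁻¹ᵁ V (φ x')) (fun x' => hV (φ x')) (fun x' => φ.preimage_mono (hle _)) ?_)
  intro x' y' z hz
  have e := Cocycle.pull_r φ (clCocycle D.toCD) x' y' (V (φ x') ⊓ V (φ y'))
    (inf_le_left.trans (hle _)) (inf_le_right.trans (hle _))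
    (φ ⁻¹ᵁ V (φ x') ⊓ φ ⁻¹ᵁ V (φ y')) (preimage_inf_le φ _ _)
  have e' := congrArg (fun a : Γ(T', φ ⁻¹ᵁ V (φ x') ⊓ φ ⁻¹ᵁ V (φ y'))ˣ =>
    (a : Γ(T', φ ⁻¹ᵁ V (φ x') ⊓ φ ⁻¹ᵁ V (φ y')))) e
  simp only [coe_resU, coe_pullU] at e'
  have hrel := congrArg (fun s => resO (preimage_inf_le φ (V (φ x')) (V (φ y'))) (φ.app _ s))
    (local_equations_rel D V hV hle t ht (φ x') (φ y'))
  simp only [map_mul, ← resO_app, resO_resO] at hrel
  have hx := (rep_app_of_germ φ D D' h x' (V (φ x')) (hV _) (t _) (ht _)).res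
    (inf_le_left : φ ⁻¹ᵁ V (φ x') ⊓ φ ⁻¹ᵁ V (φ y') ≤ φ ⁻¹ᵁ V (φ x'))
  have hy := (rep_app_of_germ φ D D' h y' (V (φ y')) (hV _) (t _) (ht _)).res
    (inf_le_right : φ ⁻¹ᵁ V (φ x') ⊓ φ ⁻¹ᵁ V (φ y') ≤ φ ⁻¹ᵁ V (φ y'))
  have h1 := hx z hz
  have h2 := hy z hz
  rw [hrel, map_mul, map_mul, h2] at h1
  refine (eq_div_iff (D'.toCD.ne y')).2 ?_
  rw [e']
  exact h1

end Fermat.Agent.S26.M

end
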