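/-
S26 / block M (architect helper99) : frames.
`IsFrame 𝓛 c e` : the `e x ∈ Γ(𝓛, c.U x)` are generators with `e y = u x y • e x` on `U x ⊓ U y`.
`Realizes 𝓛 ξ`  : `𝓛` has a frame for some representative of `ξ`.
-/
import Fermat.Agent.S26.M.Pull
import Fermat.Agent.S26.M.Gen.Pull

set_option autoImplicit false

universe u

open CategoryTheory AlgebraicGeometry AlgebraicGeometry.Scheme.Modules TopologicalSpace
  Fermat.Agent.S25.Mod

noncomputable section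

namespace Fermat.Agent.S26.M

variable {T T' : Scheme.{u}}

/-- a frame of `𝓛` with transition cocycle `c` -/
structure IsFrame (𝓛 : T.Modules) (c : Cocycle T) (e : ∀ x, Γ(𝓛, c.U x)) : Prop where
  gen : ∀ x, IsGen 𝓛 (e x)
  rel : ∀ x y, res 𝓛 (inf_le_right : c.U x ⊓ c.U y ≤ c.U y) (e y) =
    (c.u x y : Γ(T, c.U x ⊓ c.U y)) • res 𝓛 (inf_le_left : c.U x ⊓ c.U y ≤ c.U x) (e x)

/-- the sheaf `𝓛` has class `ξ` -/
def Realizes (𝓛 : T.Modules) (ξ : CPic T) : Prop :=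
  ∃ (c : Cocycle T) (e : ∀ x, Γ(𝓛, c.U x)), CPic.mk c = ξ ∧ IsFrame 𝓛 c e

/-- (`congrArg (res 𝓛 (le_inf hx hy))` of `F.rel x y`, `res_smul`, `res_res`.) -/
theorem IsFrame.rel_r {𝓛 : T.Modules} {c : Cocycle T} {e : ∀ x, Γ(𝓛, c.U x)} (F : IsFrame 𝓛 c e)
    (x y : T) (W : T.Opens) (hx : W ≤ c.U x) (hy : W ≤ c.U y) :
    res 𝓛 hy (e y) = (c.r x y W hx hy : Γ(T, W)) • res 𝓛 hx (e x) := by
  have h := congrArg (res 𝓛 (le_inf hx hy)) (F.rel x y)
  rw [res_smul, res_res, res_res] at h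
  exact h

theorem IsFrame.isInvertible {𝓛 : T.Modules} {c : Cocycle T} {e : ∀ x, Γ(𝓛, c.U x)}
    (F : IsFrame 𝓛 c e) : Scheme.Modules.IsInvertible 𝓛 :=
  isInvertible_of_isGen fun x => ⟨c.U x, e x, c.mem x, F.gen x⟩

end Fermat.Agent.S26.M

end
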