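/-
S26 / block M (architect helper99) : a trivial sheaf has trivial class.
-/
import Fermat.Agent.S26.M.Frame

set_option autoImplicit false

universe u

open CategoryTheory AlgebraicGeometry AlgebraicGeometry.Scheme.Modules TopologicalSpace
  Fermat.Agent.S25.Mod

noncomputable section

namespace Fermat.Agent.S26.M

variable {T T' : Scheme.{u}}

/-- a trivial sheaf has trivial class.
(`a x := toFn (ε.hom.app (c.U x) (e x))` is a unit: `IsGen.map_locIso (LocIso.ofIso ε _)`,
`isUnit_of_isGen`.  Apply `ε.hom` to `F.rel x y` (`LocHom.ofHom`: `nat`, `smul`):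
`a y = u x y * a x` on `U x ⊓ U y`.  Conclude with `W := c.U` and `(a x)⁻¹` (or `a x`; check the
orientation in `Cocycle.Rel`).) -/
theorem IsFrame.rel_one_of_iso {𝓛 : T.Modules} {c : Cocycle T} {e : ∀ x, Γ(𝓛, c.U x)}
    (F : IsFrame 𝓛 c e) (ε : 𝓛 ≅ OO T) : Cocycle.Rel c 1 := by
  let E : LocIso 𝓛 (OO T) ⊤ := LocIso.ofIso ε ⊤
  let b : ∀ x, Γ(T, c.U x) := fun x => toFn (E.hom.app (c.U x) le_top (e x))
  have hb : ∀ x, IsUnit (b x) := fun x =>
    isUnit_of_isGen (a := b x) ((F.gen x).map_locIso E le_top)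
  have key : ∀ x y, resU (inf_le_right : c.U x ⊓ c.U y ≤ c.U y) (hb y).unit =
      c.r x y (c.U x ⊓ c.U y) inf_le_left inf_le_right *
        resU (inf_le_left : c.U x ⊓ c.U y ≤ c.U x) (hb x).unit := by
    intro x y
    apply Units.ext
    have h1 := congrArg (E.hom.app (c.U x ⊓ c.U y) le_top)
      (F.rel_r x y (c.U x ⊓ c.U y) inf_le_left inf_le_right)
    rw [E.hom.smul, ← E.hom.nat (c.U y) _ le_top, ← E.hom.nat (c.U x) _ le_top] at h1
    exact congrArg toFn h1
  refine ⟨c.U, c.mem, fun _ => le_rfl, fun _ => le_top, fun x => (hb x).unit⁻¹, fun x y => ?_⟩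
  rw [Cocycle.one_r, one_mul, map_inv, map_inv, key, mul_inv, mul_inv_cancel_left]

end Fermat.Agent.S26.M

end
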