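/-
S26 / block M (architect helper99) : frames pull back.
-/
import Fermat.Agent.S26.M.Frame

set_option autoImplicit false

universe u

open CategoryTheory AlgebraicGeometry AlgebraicGeometry.Scheme.Modules TopologicalSpace
  Fermat.Agent.S25.Mod

noncomputable section

namespace Fermat.Agent.S26.M

variable {T T' : Scheme.{u}}

/-- frames pull back.
(`η := coadj φ (𝟙 _) : 𝓛 ⟶ φ_* φ^* 𝓛` is cartesian (`isCart_coadj`);
`e' x' := toPre φ _ (η.app (c.U (φ x')) (e (φ x')))`; `gen` is `isGen_pull`; `rel`: apply `η` to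
`F.rel (φ x') (φ y')` (`LocHom.ofHom η ⊤`: `nat`, `smul`), `toPre_smul`, `toPre_res`; the value of
`(c.pull φ).u x' y'` is `resU (preimage_inf_le ..) (pullU φ _ (c.u ..))` by `rfl`.) -/
theorem IsFrame.pull (φ : T' ⟶ T) {𝓛 : T.Modules} {c : Cocycle T} {e : ∀ x, Γ(𝓛, c.U x)}
    (F : IsFrame 𝓛 c e) :
    ∃ e' : ∀ x', Γ((Scheme.Modules.pullback φ).obj 𝓛, (c.pull φ).U x'),
      IsFrame ((Scheme.Modules.pullback φ).obj 𝓛) (c.pull φ) e' := by
  set N : T'.Modules := (Scheme.Modules.pullback φ).obj 𝓛 with hN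
  let η : 𝓛 ⟶ (pushforward φ).obj N := coadj φ (𝟙 _)
  have hη : IsCart φ η := isCart_coadj φ (𝟙 _)
  let l : LocHom 𝓛 ((pushforward φ).obj N) ⊤ := LocHom.ofHom η ⊤
  refine ⟨fun x' => toPre φ N (η.app (c.U (φ x')) (e (φ x'))), ⟨fun x' => ?_, fun x' y' => ?_⟩⟩
  · exact isGen_pull φ η hη (F.gen (φ x'))
  · have h := congrArg (fun t => toPre φ N (l.app _ le_top t)) (F.rel (φ x') (φ y'))
    simp only [l.smul, ← l.nat _ _ le_top, toPre_smul, toPre_res] at h
    have hu : (((c.pull φ).u x' y' : Γ(T', (c.pull φ).U x' ⊓ (c.pull φ).U y')ˣ) :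
        Γ(T', (c.pull φ).U x' ⊓ (c.pull φ).U y')) =
        φ.app (c.U (φ x') ⊓ c.U (φ y')) (c.u (φ x') (φ y') : Γ(T, c.U (φ x') ⊓ c.U (φ y'))) := by
      have e1 : (c.pull φ).u x' y' =
          resU (preimage_inf_le φ _ _) (pullU φ _ (c.u (φ x') (φ y'))) := rfl
      rw [e1, coe_resU, coe_pullU]
      exact resO_self _ _
    rw [hu]
    exact h

end Fermat.Agent.S26.M

end
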