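/-
S26 / block M (architect helper99) : a sheaf with trivial class is trivial.
-/
import Fermat.Agent.S26.M.Frame

set_option autoImplicit false

universe u

open CategoryTheory AlgebraicGeometry AlgebraicGeometry.Scheme.Modules TopologicalSpace
  Fermat.Agent.S25.Mod

noncomputable section

namespace Fermat.Agent.S26.M

variable {T T' : Scheme.{u}}

/-- a sheaf with trivial class is trivial.
(`Rel c 1` gives `W x`, `a x` with `a x = u x y * a y` on `W x ⊓ W y`.  The sections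
`e' x := a x • res (e x) ∈ Γ(𝓛, W x)` agree on the overlaps (`F.rel_r`, `Cocycle.r_mul_r`/`r_inv`);
`section_glue` over `⊤ ≤ ⨆ x, W x`; the glued section is a generator: `isGen_of_cover`,
`isGen_units_smul`, `IsGen.res`; `exists_iso_of_isGen_top`.) -/
theorem IsFrame.nonempty_iso_of_rel_one {𝓛 : T.Modules} {c : Cocycle T} {e : ∀ x, Γ(𝓛, c.U x)}
    (F : IsFrame 𝓛 c e) (h : Cocycle.Rel c 1) : Nonempty (𝓛 ≅ OO T) := by
  obtain ⟨W, hW, hc, h1, a, ha⟩ := h
  have hcov : (⊤ : T.Opens) ≤ ⨆ x, W x := fun x _ => Opens.mem_iSup.2 ⟨x, hW x⟩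
  have hagree : ∀ x y,
      res 𝓛 (inf_le_left : W x ⊓ W y ≤ W x) ((a x : Γ(T, W x)) • res 𝓛 (hc x) (e x)) =
        res 𝓛 (inf_le_right : W x ⊓ W y ≤ W y) ((a y : Γ(T, W y)) • res 𝓛 (hc y) (e y)) := by
    intro x y
    have h2 := ha x y
    rw [Cocycle.one_r, one_mul] at h2
    have h3 : resO (inf_le_left : W x ⊓ W y ≤ W x) (a x : Γ(T, W x)) =
        (c.r x y (W x ⊓ W y) (inf_le_left.trans (hc x)) (inf_le_right.trans (hc y)) :
          Γ(T, W x ⊓ W y)) * resO (inf_le_right : W x ⊓ W y ≤ W y) (a y : Γ(T, W y)) := by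
      have h4 := congrArg (fun t : Γ(T, W x ⊓ W y)ˣ => (t : Γ(T, W x ⊓ W y))) h2
      simpa only [Units.val_mul, coe_resU] using h4
    rw [res_smul, res_smul, res_res, res_res,
      F.rel_r x y (W x ⊓ W y) (inf_le_left.trans (hc x)) (inf_le_right.trans (hc y)), smul_smul,
      h3, mul_comm]
  obtain ⟨y, hy⟩ := section_glue 𝓛 W (fun _ => le_top) hcov
    (fun x => (a x : Γ(T, W x)) • res 𝓛 (hc x) (e x)) hagree
  have hgen : IsGen 𝓛 y := isGen_of_cover y W (fun _ => le_top) hcov (fun x => by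
    rw [hy x]
    exact isGen_units_smul ((F.gen x).res (hc x)) (a x))
  obtain ⟨E, -⟩ := exists_iso_of_isGen_top hgen
  exact ⟨E.symm⟩

end Fermat.Agent.S26.M

end
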