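/-
S26 / block M (architect helper99) : the dictionary between cocycle classes and sheaves of modules (assembly).
-/
import Fermat.Agent.S26.M.FrameIso
import Fermat.Agent.S26.M.FrameTriv
import Fermat.Agent.S26.M.FramePull

set_option autoImplicit false

universe u

open CategoryTheory AlgebraicGeometry AlgebraicGeometry.Scheme.Modules TopologicalSpace
  Fermat.Agent.S25.Mod

noncomputable section

namespace Fermat.Agent.S26.M

variable {T T' : Scheme.{u}}

theorem realizes_unit_iff (𝓛 : T.Modules) (ξ : CPic T) (h : Realizes 𝓛 ξ) :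
    Nonempty (𝓛 ≅ SheafOfModules.unit T.ringCatSheaf) ↔ ξ = 0 := by
  obtain ⟨c, e, rfl, F⟩ := h
  constructor
  · rintro ⟨ε⟩
    exact CPic.mk_eq_mk.2 (F.rel_one_of_iso ε)
  · intro h0
    exact F.nonempty_iso_of_rel_one (CPic.mk_eq_mk.1 h0)

theorem realizes_pull (φ : T' ⟶ T) (𝓛 : T.Modules) (ξ : CPic T) (h : Realizes 𝓛 ξ) :
    Realizes ((Scheme.Modules.pullback φ).obj 𝓛) (CPic.pull φ ξ) := by
  obtain ⟨c, e, rfl, F⟩ := h
  obtain ⟨e', F'⟩ := F.pull φ
  exact ⟨c.pull φ, e', rfl, F'⟩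

end Fermat.Agent.S26.M

end
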