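/-
S26 / block M (architect helper99) : every cocycle is the transition cocycle of a frame of a sheaf of
modules (no compactness needed).

CONSTRUCTION (by hand).  `𝓛(W) := { s : ∀ x, Γ(T, W ⊓ c.U x) | s x = u x y * s y on all small opens }`
(the section is `s x • e x` on `W ⊓ U x`), a `Γ(T, W)`-module through the restrictions; presheaf of
abelian groups + `PresheafOfModules.ofPresheaf`; sheaf condition from the one of the structure sheaf;
`e x₀ := (x ↦ u x x₀)`.
-/
import Fermat.Agent.S26.M.Frame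

set_option autoImplicit false

universe u

open CategoryTheory AlgebraicGeometry AlgebraicGeometry.Scheme.Modules TopologicalSpace
  Fermat.Agent.S25.Mod Opposite

noncomputable section

namespace Fermat.Agent.S26.M

variable {T : Scheme.{u}}

namespace SheafC

/-- module structure by restriction -/
@[reducible] def modInf (W V : T.Opens) : Module Γ(T, W) Γ(T, W ⊓ V) :=
  Module.compHom _ (T.presheaf.map (homOfLE (inf_le_left : W ⊓ V ≤ W)).op).hom

attribute [local instance] modInf

theorem smul_eq (W V : T.Opens) (a : Γ(T, W)) (s : Γ(T, W ⊓ V)) :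
    a • s = resO inf_le_left a * s := rfl

variable (c : Cocycle T)

/-- the sections over `W` -/
def Sec (W : T.Opens) : Submodule Γ(T, W) (∀ x : T, Γ(T, W ⊓ c.U x)) where
  carrier := {s | ∀ (x y : T) (V : T.Opens) (hW : V ≤ W) (hx : V ≤ c.U x) (hy : V ≤ c.U y),
    resO (le_inf hW hx) (s x) = (c.r x y V hx hy : Γ(T, V)) * resO (le_inf hW hy) (s y)}
  add_mem' := by
    intro s t hs ht x y V hW hx hy
    simp only [Pi.add_apply, map_add, hs x y V hW hx hy, ht x y V hW hx hy, mul_add]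
  zero_mem' := by
    intro x y V hW hx hy
    simp
  smul_mem' := by
    intro a s hs x y V hW hx hy
    simp only [Pi.smul_apply, smul_eq, map_mul, resO_resO, hs x y V hW hx hy]
    ring

theorem mem_Sec {W : T.Opens} {s : ∀ x : T, Γ(T, W ⊓ c.U x)} :
    s ∈ Sec c W ↔ ∀ (x y : T) (V : T.Opens) (hW : V ≤ W) (hx : V ≤ c.U x) (hy : V ≤ c.U y),
      resO (le_inf hW hx) (s x) = (c.r x y V hx hy : Γ(T, V)) * resO (le_inf hW hy) (s y) :=
  Iff.rfl

/-- restriction of sections -/
def secMap {W' W : T.Opens} (h : W' ≤ W) : Sec c W →+ Sec c W' where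
  toFun s := ⟨fun x => resO (inf_le_inf_right _ h) (s.1 x), by
    intro x y V hW hx hy
    simp only [resO_resO]
    exact s.2 x y V (hW.trans h) hx hy⟩
  map_zero' := by
    ext x
    simp
  map_add' s t := by
    ext x
    simp

@[simp] theorem secMap_coe {W' W : T.Opens} (h : W' ≤ W) (s : Sec c W) (x : T) :
    (secMap c h s).1 x = resO (inf_le_inf_right _ h) (s.1 x) := rfl

theorem secMap_smul {W' W : T.Opens} (h : W' ≤ W) (r : Γ(T, W)) (m : Sec c W) :
    secMap c h (r • m) = resO h r • secMap c h m := by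
  apply Subtype.ext
  funext x
  change resO (inf_le_inf_right _ h) (resO inf_le_left r * m.1 x) =
    resO inf_le_left (resO h r) * resO (inf_le_inf_right _ h) (m.1 x)
  simp only [map_mul, resO_resO]

/-- the presheaf of abelian groups -/
def pre : (Opens T)ᵒᵖ ⥤ Ab.{u} where
  obj W := AddCommGrpCat.of (Sec c W.unop)
  map i := AddCommGrpCat.ofHom (secMap c (leOfHom i.unop))
  map_id W := by
    ext s x
    exact resO_self _ _
  map_comp i j := by
    ext s x
    exact (resO_resO _ _ _).symm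

instance (X : (Opens T)ᵒᵖ) : Module (T.ringCatSheaf.obj.obj X) ((pre c).obj X) :=
  inferInstanceAs (Module Γ(T, X.unop) (Sec c X.unop))

/-- the presheaf of modules -/
def preMod : _root_.PresheafOfModules.{u} T.ringCatSheaf.obj :=
  _root_.PresheafOfModules.ofPresheaf (pre c) (by
    intro X Y f r m
    exact secMap_smul c (leOfHom f.unop) r m)

theorem sec_glue {ι : Type u} (V : ι → T.Opens) (sf : ∀ i, Sec c (V i))
    (h : ∀ i j, secMap c (inf_le_left : V i ⊓ V j ≤ V i) (sf i) =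
      secMap c (inf_le_right : V i ⊓ V j ≤ V j) (sf j)) :
    ∃! s : Sec c (iSup V), ∀ i, secMap c (le_iSup V i) s = sf i := by
  have hle : ∀ x i, V i ⊓ c.U x ≤ iSup V ⊓ c.U x := fun x i => inf_le_inf_right _ (le_iSup V i)
  have hcov : ∀ x, iSup V ⊓ c.U x ≤ ⨆ i, V i ⊓ c.U x := fun x => by
    rw [iSup_inf_eq]
  have hglue : ∀ x, ∃ y : Γ(T, iSup V ⊓ c.U x), ∀ i, resO (hle x i) y = (sf i).1 x := by
    intro x
    refine function_glue (fun i => V i ⊓ c.U x) (hle x) (hcov x) (fun i => (sf i).1 x) ?_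
    intro i j
    have h1 := congrArg (fun s : Sec c (V i ⊓ V j) => resO
      (le_inf (le_inf (inf_le_left.trans inf_le_left) (inf_le_right.trans inf_le_left))
        (inf_le_left.trans inf_le_right) :
        (V i ⊓ c.U x) ⊓ (V j ⊓ c.U x) ≤ V i ⊓ V j ⊓ c.U x) (s.1 x)) (h i j)
    simpa only [secMap_coe, resO_resO] using h1
  choose s hs using hglue
  have hmem : s ∈ Sec c (iSup V) := by
    intro x y V' hW hx hy
    refine function_ext (fun i => V' ⊓ V i) (fun i => inf_le_left) ?_ _ _ fun i => ?_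
    · rw [← inf_iSup_eq]
      exact le_inf le_rfl hW
    · have h1 := (sf i).2 x y (V' ⊓ V i) inf_le_right (inf_le_left.trans hx)
        (inf_le_left.trans hy)
      rw [← hs x i, ← hs y i] at h1
      simp only [resO_resO] at h1
      simp only [map_mul, resO_resO]
      rw [h1]
      congr 1
      have := congrArg (fun t : Γ(T, V' ⊓ V i)ˣ => (t : Γ(T, V' ⊓ V i)))
        (c.resU_r (inf_le_left : V' ⊓ V i ≤ V') hx hy)
      exact this.symm
  refine ⟨⟨s, hmem⟩, fun i => ?_, fun t ht => ?_⟩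
  · apply Subtype.ext
    funext x
    exact hs x i
  · apply Subtype.ext
    funext x
    refine function_ext (fun i => V i ⊓ c.U x) (hle x) (hcov x) _ _ fun i => ?_
    rw [hs x i, ← ht i]
    rfl

theorem isSheaf_pre : TopCat.Presheaf.IsSheaf (pre c) := by
  rw [TopCat.Presheaf.isSheaf_iff_isSheafUniqueGluing]
  intro ι V sf hsf
  exact sec_glue c V sf hsf

/-- the sheaf of modules -/
def shf : T.Modules := ⟨preMod c, isSheaf_pre c⟩

/-- sections of the sheaf -/
def toSec {W : T.Opens} (s : Γ(shf c, W)) : Sec c W := s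
/-- sections of the sheaf -/
def ofSec {W : T.Opens} (s : Sec c W) : Γ(shf c, W) := s

theorem toSec_res {W' W : T.Opens} (h : W' ≤ W) (s : Γ(shf c, W)) :
    toSec c (res (shf c) h s) = secMap c h (toSec c s) := rfl

theorem toSec_smul {W : T.Opens} (a : Γ(T, W)) (s : Γ(shf c, W)) :
    toSec c (a • s) = a • toSec c s := rfl


theorem toSec_injective {W : T.Opens} : Function.Injective (toSec c (W := W)) := fun _ _ h => h

theorem coe_r_res {x y : T} {W W' : T.Opens} (h : W' ≤ W) (hx : W ≤ c.U x) (hy : W ≤ c.U y) :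
    resO h (c.r x y W hx hy : Γ(T, W)) = (c.r x y W' (h.trans hx) (h.trans hy) : Γ(T, W')) :=
  congrArg (fun t : Γ(T, W')ˣ => (t : Γ(T, W'))) (c.resU_r h hx hy)

theorem coe_r_mul {x y z : T} (W : T.Opens) (hx : W ≤ c.U x) (hy : W ≤ c.U y) (hz : W ≤ c.U z) :
    (c.r x y W hx hy : Γ(T, W)) * (c.r y z W hy hz : Γ(T, W)) = (c.r x z W hx hz : Γ(T, W)) :=
  congrArg (fun t : Γ(T, W)ˣ => (t : Γ(T, W))) (c.r_mul_r W hx hy hz)

/-- the frame, as an element of `Sec` -/
def frameSec (x₀ : T) : Sec c (c.U x₀) :=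
  ⟨fun x => (c.r x x₀ (c.U x₀ ⊓ c.U x) inf_le_right inf_le_left : Γ(T, c.U x₀ ⊓ c.U x)), by
    intro x y V hW hx hy
    rw [coe_r_res, coe_r_res, coe_r_mul]⟩

/-- the frame -/
def frame (x₀ : T) : Γ(shf c, c.U x₀) := ofSec c (frameSec c x₀)

theorem isGen_frame (x₀ : T) : IsGen (shf c) (frame c x₀) := by
  intro W' h y
  have key : ∀ (a : Γ(T, W')) (x : T), (toSec c (a • res (shf c) h (frame c x₀))).1 x =
      resO inf_le_left a * (c.r x x₀ (W' ⊓ c.U x) inf_le_right (inf_le_left.trans h) :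
        Γ(T, W' ⊓ c.U x)) := by
    intro a x
    change resO inf_le_left a * resO (inf_le_inf_right _ h)
      (c.r x x₀ (c.U x₀ ⊓ c.U x) inf_le_right inf_le_left : Γ(T, c.U x₀ ⊓ c.U x)) = _
    rw [coe_r_res]
  refine ⟨resO (le_inf le_rfl h : W' ≤ W' ⊓ c.U x₀) ((toSec c y).1 x₀), ?_, ?_⟩
  · apply toSec_injective
    apply Subtype.ext
    funext x
    rw [key]
    have h1 := (toSec c y).2 x x₀ (W' ⊓ c.U x) inf_le_left inf_le_right (inf_le_left.trans h)
    rw [resO_self] at h1
    rw [h1, resO_resO, mul_comm]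
  · intro b hb
    have h1 := key b x₀
    rw [← hb] at h1
    rw [h1, c.r_self, Units.val_one, mul_one, resO_resO, resO_self]

theorem frame_rel (x y : T) :
    res (shf c) (inf_le_right : c.U x ⊓ c.U y ≤ c.U y) (frame c y) =
      (c.u x y : Γ(T, c.U x ⊓ c.U y)) •
        res (shf c) (inf_le_left : c.U x ⊓ c.U y ≤ c.U x) (frame c x) := by
  apply toSec_injective
  apply Subtype.ext
  funext z
  change resO (inf_le_inf_right _ inf_le_right)
      (c.r z y (c.U y ⊓ c.U z) inf_le_right inf_le_left : Γ(T, c.U y ⊓ c.U z)) =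
    resO inf_le_left (c.u x y : Γ(T, c.U x ⊓ c.U y)) * resO (inf_le_inf_right _ inf_le_left)
      (c.r z x (c.U x ⊓ c.U z) inf_le_right inf_le_left : Γ(T, c.U x ⊓ c.U z))
  rw [c.u_eq_r, coe_r_res, coe_r_res, coe_r_res, mul_comm, coe_r_mul]

end SheafC

/-- **M5.** -/
theorem exists_frame (c : Cocycle T) :
    ∃ (𝓛 : T.Modules) (e : ∀ x, Γ(𝓛, c.U x)), IsFrame 𝓛 c e :=
  ⟨SheafC.shf c, SheafC.frame c, SheafC.isGen_frame c, SheafC.frame_rel c⟩

theorem exists_realizes (ξ : CPic T) :
    ∃ 𝓛 : T.Modules, Scheme.Modules.IsInvertible 𝓛 ∧ Realizes 𝓛 ξ := by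
  obtain ⟨c, rfl⟩ := CPic.exists_mk ξ
  obtain ⟨𝓛, e, F⟩ := exists_frame c
  exact ⟨𝓛, F.isInvertible, c, e, rfl, F⟩

end Fermat.Agent.S26.M

end
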