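/-
S26 / block M : CONTRACT (functorial cocycle Picard group + dictionary with sheaves of modules).
Assembly (architect helper99): Units, Cocycle (group), Pull, Rep, RepGlue, Cl, ClPrincipal, ClPullAux, ClPull,
Gen/{Basic,Top,Open,Restrict,Pull}, Frame, FrameIso, FrameTriv, FramePull, Realizes, Sheaf.
-/
import Fermat.Agent.S26.B.Defs
import Fermat.Agent.S26.M.ClPrincipal
import Fermat.Agent.S26.M.ClPull
import Fermat.Agent.S26.M.Realizes
import Fermat.Agent.S26.M.Sheaf

set_option autoImplicit false

universe u

open CategoryTheory CategoryTheory.Limits AlgebraicGeometry NeronModelInfra GoodReductionJacobian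

namespace Fermat.Agent.S26.M

/-- the cocycle Picard theory -/
noncomputable def picBase (K : Type u) [Field K] : PicBase K where
  Pic := CPic
  pull := CPic.pull
  pull_comp := CPic.pull_comp
  pull_id := CPic.pull_id
  pic_point := CPic.pic_point K
  cl := cl
  cl_mul := cl_mul
  cl_inv := cl_inv
  isPrincipal_of_cl_eq_zero := isPrincipal_of_cl_eq_zero
  cl_pull := cl_pull
  Realizes := Realizes
  exists_realizes := fun ξ => exists_realizes ξ
  realizes_pull := realizes_pull
  realizes_unit_iff := realizes_unit_iff

/-- **Contract M.** -/
theorem nonempty_picBase (K : Type u) [Field K] : Nonempty (PicBase K) :=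
  ⟨picBase K⟩

end Fermat.Agent.S26.M
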