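/-
S26 / block M : second, independent proof of `exists_frame` (helper4, task 3521).

CONSTRUCTION (categorical).  `E V := j_* O_V` (`Γ(E V, W) = Γ(T, W ⊓ V)` through `toS`/`ofS`), twisted
restrictions `tw h a : E V ⟶ E V'`, `s ↦ a * s|`, and
`L c := multiequalizer (∏ E (U x) ⇉ ∏ E (U x ⊓ U y))` (`s x| = u x y * s y|`).  The functor of sections
over `W` preserves limits (`toPresheaf` + evaluation + forget), so the sections of `L c` over `W`
are the compatible families (`co_ext`, `co_exists`, `co_compat`); no sheaf condition has to be checked.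
-/
import Fermat.Agent.S26.M.Frame

set_option autoImplicit false

universe u

open CategoryTheory AlgebraicGeometry AlgebraicGeometry.Scheme.Modules TopologicalSpace
  Fermat.Agent.S25.Mod

noncomputable section

namespace Fermat.Agent.S26.M

namespace SheafAlt

open Opposite Limits

variable {T : Scheme.{u}}

section lim

variable {J : Type u} [Category.{u} J] (D : J ⥤ T.Modules)

/-- sections of a limit of modules -/
def secEquiv (W : T.Opens) : Γ(limit D, W) ≃
    (((D ⋙ toPresheaf T) ⋙ (evaluation _ _).obj (op W)) ⋙ forget Ab).sections :=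
  Types.isLimitEquivSections (isLimitOfPreserves (forget Ab)
    (isLimitOfPreserves ((evaluation _ _).obj (op W))
      (isLimitOfPreserves (toPresheaf T) (limit.isLimit D))))

theorem secEquiv_apply (W : T.Opens) (s : Γ(limit D, W)) (j : J) :
    (secEquiv D W s).1 j = (limit.π D j).app W s := rfl

theorem sec_ext (W : T.Opens) (s t : Γ(limit D, W))
    (h : ∀ j, (limit.π D j).app W s = (limit.π D j).app W t) : s = t := by
  apply (secEquiv D W).injective
  ext j
  exact h j

theorem sec_exists (W : T.Opens) (s : ∀ j, Γ(D.obj j, W))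
    (h : ∀ (j j' : J) (f : j ⟶ j'), (D.map f).app W (s j) = s j') :
    ∃ t : Γ(limit D, W), ∀ j, (limit.π D j).app W t = s j := by
  refine ⟨(secEquiv D W).symm ⟨s, fun {j j'} f => h j j' f⟩, fun j => ?_⟩
  rw [← secEquiv_apply, Equiv.apply_symm_apply]

end lim

section meq

variable {S : MulticospanShape.{u, u}} (I : MulticospanIndex S T.Modules)

theorem meq_cond (W : T.Opens) (s : Γ(multiequalizer I, W)) (b : S.R) :
    (I.fst b).app W ((Multiequalizer.ι I (S.fst b)).app W s) =
      (I.snd b).app W ((Multiequalizer.ι I (S.snd b)).app W s) := by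
  have h := congr(($(Multiequalizer.condition I b)).app W s)
  exact h

theorem meq_ext (W : T.Opens) (s t : Γ(multiequalizer I, W))
    (h : ∀ a, (Multiequalizer.ι I a).app W s = (Multiequalizer.ι I a).app W t) : s = t := by
  apply sec_ext I.multicospan W
  rintro (a | b)
  · exact h a
  · have h1 : limit.π I.multicospan (WalkingMulticospan.right b) =
        Multiequalizer.ι I (S.fst b) ≫ I.fst b :=
      (limit.w I.multicospan (WalkingMulticospan.Hom.fst b)).symm
    rw [h1]
    exact congrArg ((I.fst b).app W) (h (S.fst b))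

theorem meq_exists (W : T.Opens) (σ : ∀ a, Γ(I.left a, W))
    (h : ∀ b, (I.fst b).app W (σ (S.fst b)) = (I.snd b).app W (σ (S.snd b))) :
    ∃ t : Γ(multiequalizer I, W), ∀ a, (Multiequalizer.ι I a).app W t = σ a := by
  obtain ⟨t, ht⟩ := sec_exists I.multicospan W
    (fun j => match j with
      | WalkingMulticospan.left a => σ a
      | WalkingMulticospan.right b => (I.fst b).app W (σ (S.fst b))) (by
      rintro _ _ (_ | b | b)
      · simp
      · rfl
      · exact (h b).symm)
  exact ⟨t, fun a => ht (WalkingMulticospan.left a)⟩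

end meq

section E

/-- `j_* O_V` -/
def E (V : T.Opens) : T.Modules := (pushforward V.ι).obj (OO (V : Scheme.{u}))

theorem img_eq (V W : T.Opens) : V.ι ''ᵁ (V.ι ⁻¹ᵁ W) = W ⊓ V := by
  rw [Scheme.Hom.image_preimage_eq_opensRange_inf, Scheme.Opens.opensRange_ι, inf_comm]

/-- raw sections -/
def toR {V W : T.Opens} (s : Γ(E V, W)) : Γ(T, V.ι ''ᵁ (V.ι ⁻¹ᵁ W)) := s

/-- raw sections -/
def ofR {V W : T.Opens} (s : Γ(T, V.ι ''ᵁ (V.ι ⁻¹ᵁ W))) : Γ(E V, W) := s

theorem toR_add {V W : T.Opens} (s t : Γ(E V, W)) : toR (s + t) = toR s + toR t := rfl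
theorem toR_zero {V W : T.Opens} : toR (0 : Γ(E V, W)) = 0 := rfl
theorem toR_smul {V W : T.Opens} (a : Γ(T, W)) (s : Γ(E V, W)) :
    toR (a • s) = resO ((img_eq V W).le.trans inf_le_left) a * toR s := rfl
theorem toR_res {V W W' : T.Opens} (h : W' ≤ W) (s : Γ(E V, W)) :
    toR (res (E V) h s) = resO (V.ι.image_mono (V.ι.preimage_mono h)) (toR s) := rfl


theorem rO_add {W' W : T.Opens} (h : W' ≤ W) (a b : Γ(T, W)) :
    resO h (a + b) = resO h a + resO h b := map_add _ _ _
theorem rO_mul {W' W : T.Opens} (h : W' ≤ W) (a b : Γ(T, W)) :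
    resO h (a * b) = resO h a * resO h b := map_mul _ _ _
theorem rO_zero {W' W : T.Opens} (h : W' ≤ W) : resO h (0 : Γ(T, W)) = 0 := map_zero _

/-- sections of `E V` over `W` are functions on `W ⊓ V` -/
def toS {V W : T.Opens} (s : Γ(E V, W)) : Γ(T, W ⊓ V) := resO (img_eq V W).ge (toR s)

/-- functions on `W ⊓ V` are sections of `E V` over `W` -/
def ofS {V W : T.Opens} (s : Γ(T, W ⊓ V)) : Γ(E V, W) := ofR (resO (img_eq V W).le s)

@[simp] theorem toS_ofS {V W : T.Opens} (s : Γ(T, W ⊓ V)) : toS (ofS s : Γ(E V, W)) = s := by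
  change resO _ (resO _ s) = s
  rw [resO_resO, resO_self]

@[simp] theorem ofS_toS {V W : T.Opens} (s : Γ(E V, W)) : ofS (toS s) = s := by
  change resO _ (resO _ (toR s)) = toR s
  rw [resO_resO, resO_self]

theorem toS_injective {V W : T.Opens} : Function.Injective (toS : Γ(E V, W) → Γ(T, W ⊓ V)) :=
  Function.LeftInverse.injective ofS_toS

theorem toS_add {V W : T.Opens} (s t : Γ(E V, W)) : toS (s + t) = toS s + toS t := by
  unfold toS
  rw [toR_add, rO_add]

theorem toS_zero {V W : T.Opens} : toS (0 : Γ(E V, W)) = 0 := by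
  unfold toS
  rw [toR_zero, rO_zero]

theorem toS_smul {V W : T.Opens} (a : Γ(T, W)) (s : Γ(E V, W)) :
    toS (a • s) = resO inf_le_left a * toS s := by
  unfold toS
  rw [toR_smul, rO_mul, resO_resO]

theorem toS_res {V W W' : T.Opens} (h : W' ≤ W) (s : Γ(E V, W)) :
    toS (res (E V) h s) = resO (inf_le_inf_right V h) (toS s) := by
  unfold toS
  rw [toR_res, resO_resO, resO_resO]

/-- twisted restriction -/
def twL {V V' : T.Opens} (h : V' ≤ V) (a : Γ(T, V')) : LocHom (E V) (E V') ⊤ where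
  app W _ :=
    { toFun := fun s => ofS (resO inf_le_right a * resO (inf_le_inf_left W h) (toS s))
      map_zero' := by
        apply toS_injective
        rw [toS_ofS, toS_zero, toS_zero, rO_zero, mul_zero]
      map_add' := fun s t => by
        apply toS_injective
        rw [toS_ofS, toS_add, toS_add, toS_ofS, toS_ofS, rO_add, mul_add] }
  nat W W' _ h' s := by
    apply toS_injective
    simp only [AddMonoidHom.coe_mk, ZeroHom.coe_mk]
    rw [toS_res, toS_ofS, toS_ofS, toS_res, rO_mul, resO_resO, resO_resO, resO_resO]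
  smul W _ b s := by
    apply toS_injective
    simp only [AddMonoidHom.coe_mk, ZeroHom.coe_mk]
    rw [toS_ofS, toS_smul, toS_smul, toS_ofS, rO_mul, resO_resO, mul_left_comm]

/-- twisted restriction -/
def tw {V V' : T.Opens} (h : V' ≤ V) (a : Γ(T, V')) : E V ⟶ E V' := (twL h a).toHom

theorem toS_tw {V V' : T.Opens} (h : V' ≤ V) (a : Γ(T, V')) (W : T.Opens) (s : Γ(E V, W)) :
    toS ((tw h a).app W s) = resO inf_le_right a * resO (inf_le_inf_left W h) (toS s) := by
  change toS (ofS _) = _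
  rw [toS_ofS]

end E


section main

variable (c : Cocycle T)

theorem resO_r {x y : T} {W W' : T.Opens} (h : W' ≤ W) (hx : W ≤ c.U x) (hy : W ≤ c.U y) :
    resO h (c.r x y W hx hy : Γ(T, W)) = (c.r x y W' (h.trans hx) (h.trans hy) : Γ(T, W')) := by
  rw [← coe_resU, Cocycle.resU_r]

theorem resO_u {x y : T} {W' : T.Opens} (h : W' ≤ c.U x ⊓ c.U y) :
    resO h (c.u x y : Γ(T, c.U x ⊓ c.U y)) =
      (c.r x y W' (h.trans inf_le_left) (h.trans inf_le_right) : Γ(T, W')) := rfl

theorem r_mul_r' {x y z : T} (W : T.Opens) (hx : W ≤ c.U x) (hy : W ≤ c.U y) (hz : W ≤ c.U z) :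
    (c.r x y W hx hy : Γ(T, W)) * (c.r y z W hy hz : Γ(T, W)) = (c.r x z W hx hz : Γ(T, W)) := by
  rw [← Units.val_mul, Cocycle.r_mul_r]

/-- the gluing diagram -/
def idx : MulticospanIndex (MulticospanShape.prod T) T.Modules where
  left x := E (c.U x)
  right b := E (c.U b.1 ⊓ c.U b.2)
  fst _ := tw inf_le_left 1
  snd b := tw inf_le_right (c.u b.1 b.2 : Γ(T, c.U b.1 ⊓ c.U b.2))

/-- the glued module -/
def L : T.Modules := multiequalizer (idx c)

/-- the projections -/
def pr (x : T) : L c ⟶ E (c.U x) := Multiequalizer.ι (idx c) x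

variable {c}

/-- the coordinates of a section -/
def co (x : T) {W : T.Opens} (s : Γ(L c, W)) : Γ(T, W ⊓ c.U x) := toS ((pr c x).app W s)

theorem co_ext {W : T.Opens} (s t : Γ(L c, W)) (h : ∀ x, co x s = co x t) : s = t :=
  meq_ext (idx c) W s t fun x => toS_injective (h x)

theorem co_smul (x : T) {W : T.Opens} (a : Γ(T, W)) (s : Γ(L c, W)) :
    co x (a • s) = resO inf_le_left a * co x s := by
  unfold co
  rw [Scheme.Modules.Hom.app_smul, toS_smul]

theorem co_res (x : T) {W W' : T.Opens} (h : W' ≤ W) (s : Γ(L c, W)) :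
    co x (res (L c) h s) = resO (inf_le_inf_right _ h) (co x s) := by
  unfold co
  have h1 := (LocHom.ofHom (pr c x) ⊤).nat W W' le_top h s
  simp only [LocHom.ofHom_app] at h1
  rw [← h1, toS_res]

theorem co_compat {W : T.Opens} (s : Γ(L c, W)) (x y : T) (V : T.Opens) (hx : V ≤ W ⊓ c.U x)
    (hy : V ≤ W ⊓ c.U y) :
    resO hx (co x s) =
      (c.r x y V (hx.trans inf_le_right) (hy.trans inf_le_right) : Γ(T, V)) * resO hy (co y s) := by
  have h1 := congrArg toS (meq_cond (idx c) W s (x, y))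
  have h2 : resO inf_le_right (1 : Γ(T, c.U x ⊓ c.U y)) *
      resO (inf_le_inf_left W inf_le_left) (co x s) =
      resO inf_le_right (c.u x y : Γ(T, c.U x ⊓ c.U y)) *
        resO (inf_le_inf_left W inf_le_right) (co y s) :=
    ((toS_tw _ _ _ _).symm.trans h1).trans (toS_tw _ _ _ _)
  have h3 := congrArg (resO (le_inf (hx.trans inf_le_left)
    (le_inf (hx.trans inf_le_right) (hy.trans inf_le_right)) : V ≤ W ⊓ (c.U x ⊓ c.U y))) h2
  rw [rO_mul, rO_mul, resO_resO, resO_resO, resO_resO, resO_resO, resO_one, one_mul, resO_u] at h3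
  exact h3

theorem co_exists {W : T.Opens} (σ : ∀ x, Γ(T, W ⊓ c.U x))
    (h : ∀ (x y : T) (V : T.Opens) (hx : V ≤ W ⊓ c.U x) (hy : V ≤ W ⊓ c.U y), resO hx (σ x) =
      (c.r x y V (hx.trans inf_le_right) (hy.trans inf_le_right) : Γ(T, V)) * resO hy (σ y)) :
    ∃ s : Γ(L c, W), ∀ x, co x s = σ x := by
  obtain ⟨s, hs⟩ := meq_exists (idx c) W (fun x => ofS (σ x)) (by
    rintro ⟨x, y⟩
    apply toS_injective
    refine (toS_tw _ _ _ _).trans (Eq.trans ?_ (toS_tw _ _ _ _).symm)
    rw [toS_ofS, toS_ofS, resO_one, one_mul, resO_u]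
    exact h x y _ _ _)
  refine ⟨s, fun x => ?_⟩
  unfold co
  have := hs x
  rw [show (pr c x).app W s = ofS (σ x) from hs x, toS_ofS]

end main


section frame

variable (c : Cocycle T)

theorem exists_e (x₀ : T) : ∃ e : Γ(L c, c.U x₀), ∀ x,
    co x e = (c.r x x₀ (c.U x₀ ⊓ c.U x) inf_le_right inf_le_left : Γ(T, c.U x₀ ⊓ c.U x)) :=
  co_exists _ fun x y V hx hy => by
    rw [resO_r, resO_r, r_mul_r']

/-- the frame -/
def e (x₀ : T) : Γ(L c, c.U x₀) := (exists_e c x₀).choose

theorem co_e (x₀ x : T) :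
    co x (e c x₀) = (c.r x x₀ (c.U x₀ ⊓ c.U x) inf_le_right inf_le_left : Γ(T, c.U x₀ ⊓ c.U x)) :=
  (exists_e c x₀).choose_spec x

theorem co_res_e (x₀ x : T) {W : T.Opens} (h : W ≤ c.U x₀) :
    co x (res (L c) h (e c x₀)) =
      (c.r x x₀ (W ⊓ c.U x) inf_le_right (inf_le_left.trans h) : Γ(T, W ⊓ c.U x)) := by
  rw [co_res, co_e, resO_r]

theorem isGen_e (x₀ : T) : IsGen (L c) (e c x₀) := by
  intro W h y
  refine ⟨resO (le_inf le_rfl h) (co x₀ y), ?_, ?_⟩
  · apply co_ext
    intro x
    rw [co_smul, co_res_e, resO_resO, mul_comm]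
    have h1 := co_compat y x x₀ (W ⊓ c.U x) le_rfl (le_inf inf_le_left (inf_le_left.trans h))
    rw [resO_self] at h1
    exact h1
  · intro b hb
    have h1 := congrArg (co x₀) hb
    rw [co_smul, co_res_e, Cocycle.r_self, Units.val_one, mul_one] at h1
    rw [h1, resO_resO, resO_self]

theorem rel_e (x y : T) : res (L c) (inf_le_right : c.U x ⊓ c.U y ≤ c.U y) (e c y) =
    (c.u x y : Γ(T, c.U x ⊓ c.U y)) • res (L c) (inf_le_left : c.U x ⊓ c.U y ≤ c.U x) (e c x) := by
  apply co_ext
  intro z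
  rw [co_smul, co_res_e, co_res_e, resO_u, mul_comm, r_mul_r']

end frame

end SheafAlt

variable {T : Scheme.{u}}

/-- **M5**, second proof: the module is the multiequalizer of the `j_* O_{U x}` along the twisted
restrictions to the `j_* O_{U x ⊓ U y}`. -/
theorem exists_frame_alt (c : Cocycle T) :
    ∃ (𝓛 : T.Modules) (e : ∀ x, Γ(𝓛, c.U x)), IsFrame 𝓛 c e :=
  ⟨SheafAlt.L c, SheafAlt.e c, SheafAlt.isGen_e c, SheafAlt.rel_e c⟩

end Fermat.Agent.S26.M

end
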